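import Fermat.Agent.H54.Cft.KummerInterfaces

/-!
# P-CFT / KUMMER DICTIONARY, KD-4: finitely many `S`-level characters of `G_L` (helper54)

`levelCharFinite_of : Hilbert90LStatement → KummerRamStatement → SelmerFiniteStatement →
  LevelCharFiniteStatement`.

An `S`-level character `b` of `G_L` has a Kummer generator `α` (KD-1); `a = α ^ p ∈ Lˣ` has
`p ∣ ord_v a` at every prime `v` of `L` not over `S` (KD-2: the inertia groups at such `v` lie
in `G_F` for the level `F` of `b`); the class of `a` modulo `p`-th powers lies in a finite set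
(KD-3) and determines `b` on `G_L`.
-/

set_option autoImplicit false
set_option linter.style.haveILetI false

open IsDedekindDomain NumberField

namespace Fermat.Agent.H54.Cft

/-- `ℚ̄ / ℚ` is Galois (for the algebra instance found by instance search). -/
theorem isGalois_Qbar_kd : IsGalois ℚ Qbar := by
  have h : (DivisionRing.toRatAlgebra : Algebra ℚ (AlgebraicClosure ℚ)) =
      AlgebraicClosure.instAlgebra ℚ := Subsingleton.elim _ _
  rw [h]
  infer_instance

/-- A prime ideal containing a product of natural numbers contains one of them. -/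
theorem exists_mem_of_list_prod_mem {R : Type*} [CommRing R] (P : Ideal R) [hP : P.IsPrime] :
    ∀ l : List ℕ, ((l.prod : ℕ) : R) ∈ P → ∃ x ∈ l, ((x : ℕ) : R) ∈ P := by
  intro l
  induction l with
  | nil =>
    intro h
    exfalso
    rw [List.prod_nil, Nat.cast_one] at h
    exact hP.ne_top ((Ideal.eq_top_iff_one P).mpr h)
  | cons a l ih =>
    intro h
    rw [List.prod_cons, Nat.cast_mul] at h
    rcases hP.mem_or_mem h with h1 | h1
    · exact ⟨a, List.mem_cons_self, h1⟩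
    · obtain ⟨x, hx, hxP⟩ := ih h1
      exact ⟨x, List.mem_cons_of_mem _ hx, hxP⟩

/-- Every prime of a number field contains a rational prime. -/
theorem exists_prime_mem_heightOne (K : Type*) [Field K] [NumberField K]
    (v : HeightOneSpectrum (𝓞 K)) : ∃ ℓ : ℕ, ℓ.Prime ∧ ((ℓ : ℕ) : 𝓞 K) ∈ v.asIdeal := by
  have hN : ((Ideal.absNorm v.asIdeal : ℕ) : 𝓞 K) ∈ v.asIdeal := Ideal.absNorm_mem _
  have hN0 : Ideal.absNorm v.asIdeal ≠ 0 := by
    rw [Ne, Ideal.absNorm_eq_zero_iff]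
    exact v.ne_bot
  rw [← Nat.prod_primeFactorsList hN0] at hN
  haveI := v.isPrime
  obtain ⟨ℓ, hℓ, hℓv⟩ := exists_mem_of_list_prod_mem v.asIdeal _ hN
  exact ⟨ℓ, Nat.prime_of_mem_primeFactorsList hℓ, hℓv⟩

/-- A prime of a number field `L ≤ ℚ̄` lies under some place of `ℚ̄`. -/
theorem exists_place_over_heightOne (L : IntermediateField ℚ Qbar) [NumberField L]
    (v : HeightOneSpectrum (𝓞 L)) {ℓ : ℕ} (hℓv : ((ℓ : ℕ) : 𝓞 L) ∈ v.asIdeal) :
    ∃ A : ValuationSubring Qbar, A.LiesOverPrime ℓ ∧ LiesOverHeightOne L A v := by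
  let φ : 𝓞 L →+* Qbar := (algebraMap L Qbar).comp (algebraMap (𝓞 L) L)
  have hφ : Function.Injective φ :=
    (algebraMap L Qbar).injective.comp NumberField.RingOfIntegers.coe_injective
  have hP : v.asIdeal.IsPrime := v.isPrime
  have hI : v.asIdeal.map φ.rangeRestrict ≠ ⊤ := by
    intro htop
    have h1 : (1 : φ.range) ∈ v.asIdeal.map φ.rangeRestrict := htop ▸ Submodule.mem_top
    obtain ⟨x, hx, hx1⟩ :=
      (Ideal.mem_map_iff_of_surjective φ.rangeRestrict φ.rangeRestrict_surjective).mp h1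
    have h2 : φ x = φ 1 := by
      have := congrArg Subtype.val hx1
      simpa using this
    rw [hφ h2] at hx
    exact hP.ne_top ((Ideal.eq_top_iff_one v.asIdeal).mpr hx)
  obtain ⟨A, -, hA⟩ := Ideal.image_subset_nonunits_valuationSubring _ hI
  have key : ∀ x : 𝓞 L, x ∈ v.asIdeal → φ x ∈ A.nonunits := fun x hx =>
    hA ⟨φ.rangeRestrict x, Ideal.mem_map_of_mem _ hx, rfl⟩
  refine ⟨A, ?_, key⟩
  have := key _ hℓv
  simpa [φ, ValuationSubring.LiesOverPrime] using this

/-- The primes of `L` over a finite set of rational primes form a finite set. -/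
theorem finite_primes_over (K : Type*) [Field K] [NumberField K] (S : Finset Nat.Primes) :
    {v : HeightOneSpectrum (𝓞 K) | ∃ q ∈ S, (((q : ℕ) : ℕ) : 𝓞 K) ∈ v.asIdeal}.Finite := by
  have h : {v : HeightOneSpectrum (𝓞 K) | ∃ q ∈ S, (((q : ℕ) : ℕ) : 𝓞 K) ∈ v.asIdeal} =
      ⋃ q ∈ S, {v : HeightOneSpectrum (𝓞 K) |
        v.asIdeal ∣ Ideal.span {(((q : ℕ) : ℕ) : 𝓞 K)}} := by
    ext v
    simp only [Set.mem_ofPred_eq, Set.mem_iUnion, exists_prop, Ideal.dvd_span_singleton]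
  rw [h]
  refine Set.Finite.biUnion S.finite_toSet fun q _ => Ideal.finite_factors ?_
  intro h0
  have h1 : (((q : ℕ) : ℕ) : 𝓞 K) = 0 := by
    have := Ideal.span_singleton_eq_bot.mp h0
    exact this
  have h2 : ((q : ℕ) : ℕ) = 0 := by exact_mod_cast h1
  exact q.2.ne_zero h2

/-- **KD-4 from KD-1, KD-2, KD-3.** -/
theorem levelCharFinite_of (h1 : Hilbert90LStatement) (h2 : KummerRamStatement)
    (h3 : SelmerFiniteStatement) : LevelCharFiniteStatement := by
  intro p _ S L hLfin hroots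
  classical
  haveI := hLfin
  haveI : NumberField L := ⟨⟩
  haveI := isGalois_Qbar_kd
  have hp : p.Prime := Fact.out
  haveI : NeZero p := ⟨hp.ne_zero⟩
  haveI : NeZero ((p : ℕ) : Qbar) := ⟨by exact_mod_cast hp.ne_zero⟩
  obtain ⟨ζ, hζ⟩ : ∃ ζ : Qbar, IsPrimitiveRoot ζ p :=
    HasEnoughRootsOfUnity.exists_primitiveRoot Qbar p
  have hζL : ζ ∈ L := hroots ζ hζ.pow_eq_one
  have hζ0 : ζ ≠ 0 := hζ.ne_zero hp.ne_zero
  obtain ⟨R, hR⟩ := h3 L (finite_primes_over L S).toFinset p hp.pos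
  -- the relation "the Kummer class of `b` is `r`"
  let Rel : (GQ → ZMod p) → Lˣ → Prop := fun b r =>
    ∃ α : Qbar, IsKummerGen L ζ b α ∧ ∃ c : Lˣ, α ^ p = (((r * c ^ p : Lˣ) : L) : Qbar)
  have hex : ∀ b : GQ → ZMod p, IsLevelCharS S L b → ∃ r ∈ R, Rel b r := by
    rintro b ⟨hadd, F, hF, hvan⟩
    obtain ⟨α, hα0, hα⟩ := h1 p L ζ hζ hζL b hadd ⟨F, hF.1, hvan⟩
    -- `α ^ p ∈ L`
    have hmem : α ^ p ∈ L := by
      have h : α ^ p ∈ IntermediateField.fixedField L.fixingSubgroup := by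
        rw [IntermediateField.mem_fixedField_iff]
        intro g hg
        rw [map_pow, hα g hg, mul_pow, ← pow_mul, mul_comm (b g).val p, pow_mul,
          hζ.pow_eq_one, one_pow, one_mul]
      rwa [InfiniteGalois.fixedField_fixingSubgroup L] at h
    have hne : (⟨α ^ p, hmem⟩ : L) ≠ 0 := by
      intro h0
      have := congrArg Subtype.val h0
      exact pow_ne_zero p hα0 this
    let a : Lˣ := Units.mk0 ⟨α ^ p, hmem⟩ hne
    have hord : ∀ v : HeightOneSpectrum (𝓞 L), v ∉ (finite_primes_over L S).toFinset →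
        OrdDvdAt p v a := by
      intro v hv
      obtain ⟨ℓ, hℓ, hℓv⟩ := exists_prime_mem_heightOne L v
      have hℓS : (⟨ℓ, hℓ⟩ : Nat.Primes) ∉ S := by
        intro hmemS
        apply hv
        rw [Set.Finite.mem_toFinset]
        exact ⟨⟨ℓ, hℓ⟩, hmemS, hℓv⟩
      obtain ⟨A, hA, hAv⟩ := exists_place_over_heightOne L v hℓv
      refine h2 p L hroots α a rfl A v hAv ?_
      intro σ hσ hσL
      have hσF : σ ∈ F.fixingSubgroup := hF.2 ⟨ℓ, hℓ⟩ hℓS A hA hσ
      rw [hα σ hσL, hvan σ hσF hσL]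
      simp
    obtain ⟨r, hr, c, hrc⟩ := hR a hord
    refine ⟨r, hr, α, ⟨hα0, hα⟩, c, ?_⟩
    rw [← hrc]
    rfl
  have hinj : ∀ (b b' : GQ → ZMod p) (r : Lˣ), Rel b r → Rel b' r →
      ∀ τ ∈ L.fixingSubgroup, b τ = b' τ := by
    rintro b b' r ⟨α, ⟨hα0, hα⟩, c, hαc⟩ ⟨α', ⟨hα'0, hα'⟩, c', hα'c⟩ τ hτ
    have hτL : ∀ x : L, τ (x : Qbar) = x := fun x =>
      (IntermediateField.mem_fixingSubgroup_iff L τ).mp hτ x x.2
    have hc0 : (((c : Lˣ) : L) : Qbar) ≠ 0 := by
      intro h0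
      exact c.ne_zero (Subtype.ext h0)
    have hc'0 : (((c' : Lˣ) : L) : Qbar) ≠ 0 := by
      intro h0
      exact c'.ne_zero (Subtype.ext h0)
    have hr0 : (((r : Lˣ) : L) : Qbar) ≠ 0 := by
      intro h0
      exact r.ne_zero (Subtype.ext h0)
    set ω : Qbar := α' * (((c : Lˣ) : L) : Qbar) / (α * (((c' : Lˣ) : L) : Qbar)) with hω
    have hωp : ω ^ p = 1 := by
      rw [hω, div_pow, mul_pow, mul_pow, hαc, hα'c]
      push_cast
      field_simp
    have hωL : ω ∈ L := hroots ω hωp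
    have hτω : τ ω = ω := hτL ⟨ω, hωL⟩
    have hτω' : τ ω = ζ ^ (b' τ).val / ζ ^ (b τ).val * ω := by
      rw [hω, map_div₀, map_mul, map_mul, hτL, hτL, hα τ hτ, hα' τ hτ]
      field_simp
    have hω0 : ω ≠ 0 := by
      rw [hω]
      exact div_ne_zero (mul_ne_zero hα'0 hc0) (mul_ne_zero hα0 hc'0)
    have hζeq : ζ ^ (b' τ).val = ζ ^ (b τ).val := by
      have h5 : ζ ^ (b' τ).val / ζ ^ (b τ).val = 1 := by
        have h6 : ζ ^ (b' τ).val / ζ ^ (b τ).val * ω = 1 * ω := by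
          rw [← hτω', hτω, one_mul]
        exact mul_right_cancel₀ hω0 h6
      have h7 : ζ ^ (b τ).val ≠ 0 := pow_ne_zero _ hζ0
      field_simp at h5
      exact h5
    have hval : (b' τ).val = (b τ).val :=
      hζ.pow_inj (ZMod.val_lt _) (ZMod.val_lt _) hζeq
    exact (ZMod.val_injective p hval).symm
  let pick : Lˣ → (GQ → ZMod p) := fun r => if h : ∃ b, Rel b r then h.choose else 0
  refine ⟨R.image pick, fun b hb => ?_⟩
  obtain ⟨r, hr, hrel⟩ := hex b hb
  refine ⟨pick r, Finset.mem_image_of_mem _ hr, ?_⟩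
  have hpick : Rel (pick r) r := by
    have hex' : ∃ b, Rel b r := ⟨b, hrel⟩
    simp only [pick, dif_pos hex']
    exact hex'.choose_spec
  exact hinj b (pick r) r hrel hpick

end Fermat.Agent.H54.Cft
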