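import Fermat.Agent.H54.Cft.KummerInterfaces2
import Fermat.Agent.H54.Cft.KummerCharFinite

/-!
# P-CFT / KUMMER DICTIONARY, KD-6 and KD-8 (helper54)

* `kummerCharExists : KummerCharExistsStatement` (KD-6, unconditional);
* `kummerGen_pow_mem` : a Kummer generator has `α ^ p ∈ L`;
* `kummerChar_eq_iff` : two Kummer characters agree on `G_L` iff the elements differ by a
  `p`-th power;
* `kummerBijection_of : Hilbert90LStatement → KummerRamStatement → KummerLevelStatement →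
    KummerBijectionStatement` (KD-8).
-/

set_option autoImplicit false
set_option linter.style.haveILetI false

open IsDedekindDomain NumberField

namespace Fermat.Agent.H54.Cft

section Basic

variable {p : ℕ} [Fact p.Prime] {L : IntermediateField ℚ Qbar} {ζ : Qbar}

omit [Fact p.Prime] in
/-- A Kummer generator has `α ^ p` fixed by `G_L`. -/
theorem kummerGen_pow_fixed (hζ : IsPrimitiveRoot ζ p) {b : GQ → ZMod p} {α : Qbar}
    (hα : IsKummerGen L ζ b α) : ∀ g ∈ L.fixingSubgroup, g (α ^ p) = α ^ p := by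
  intro g hg
  rw [map_pow, hα.2 g hg, mul_pow, ← pow_mul, mul_comm (b g).val p, pow_mul,
    hζ.pow_eq_one, one_pow, one_mul]

/-- A Kummer generator has `α ^ p ∈ L`. -/
theorem kummerGen_pow_mem (hζ : IsPrimitiveRoot ζ p) {b : GQ → ZMod p} {α : Qbar}
    (hα : IsKummerGen L ζ b α) : α ^ p ∈ L := by
  haveI := isGalois_Qbar_kd
  have h : α ^ p ∈ IntermediateField.fixedField L.fixingSubgroup := by
    rw [IntermediateField.mem_fixedField_iff]
    exact kummerGen_pow_fixed hζ hα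
  rwa [InfiniteGalois.fixedField_fixingSubgroup L] at h

/-- `ζ ^ m = ζ ^ n` iff `m ≡ n mod p`, in `ZMod p` form. -/
theorem zeta_pow_val_eq (hζ : IsPrimitiveRoot ζ p) {x y : ZMod p}
    (h : ζ ^ x.val = ζ ^ y.val) : x = y := by
  haveI : NeZero p := ⟨(Fact.out : p.Prime).ne_zero⟩
  exact ZMod.val_injective p (hζ.pow_inj (ZMod.val_lt _) (ZMod.val_lt _) h)

theorem zeta_pow_val_add (hζ : IsPrimitiveRoot ζ p) (x y : ZMod p) :
    ζ ^ (x + y).val = ζ ^ x.val * ζ ^ y.val := by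
  haveI : NeZero p := ⟨(Fact.out : p.Prime).ne_zero⟩
  rw [ZMod.val_add, ← pow_add, ← pow_eq_pow_mod _ hζ.pow_eq_one]

/-- **KD-6**: the Kummer character of an element. -/
theorem kummerCharExists : KummerCharExistsStatement := by
  intro p _ L ζ hζ hζL α hα0 hαL
  classical
  have hp : p.Prime := Fact.out
  haveI : NeZero p := ⟨hp.ne_zero⟩
  have hζ0 : ζ ≠ 0 := hζ.ne_zero hp.ne_zero
  have hfix : ∀ τ ∈ L.fixingSubgroup, ∀ x ∈ L, τ x = x := fun τ hτ x hx =>
    (IntermediateField.mem_fixingSubgroup_iff L τ).mp hτ x hx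
  have hex : ∀ τ : GQ, τ ∈ L.fixingSubgroup → ∃ k : ZMod p, τ α = ζ ^ k.val * α := by
    intro τ hτ
    have h1 : (τ α / α) ^ p = 1 := by
      rw [div_pow, ← map_pow, hfix τ hτ _ hαL, div_self (pow_ne_zero p hα0)]
    obtain ⟨i, hi, hiζ⟩ := hζ.eq_pow_of_pow_eq_one h1
    refine ⟨(i : ZMod p), ?_⟩
    rw [ZMod.val_natCast_of_lt hi, hiζ]
    field_simp
  let b : GQ → ZMod p := fun τ => if h : τ ∈ L.fixingSubgroup then (hex τ h).choose else 0
  have hb : ∀ τ ∈ L.fixingSubgroup, τ α = ζ ^ (b τ).val * α := by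
    intro τ hτ
    simp only [b, dif_pos hτ]
    exact (hex τ hτ).choose_spec
  refine ⟨b, ?_, ⟨hα0, hb⟩, ?_⟩
  · intro σ hσ τ hτ
    apply zeta_pow_val_eq hζ
    have h1 : (σ * τ) α = ζ ^ (b (σ * τ)).val * α := hb _ (mul_mem hσ hτ)
    have h2 : (σ * τ) α = ζ ^ (b σ).val * ζ ^ (b τ).val * α := by
      show σ (τ α) = _
      rw [hb τ hτ, map_mul, map_pow, hfix σ hσ ζ hζL, hb σ hσ]
      ring
    rw [zeta_pow_val_add hζ]
    exact mul_right_cancel₀ hα0 (h1.symm.trans h2)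
  · intro s hs hsα
    apply zeta_pow_val_eq hζ
    have h1 := hb s hs
    rw [hsα] at h1
    rw [ZMod.val_zero, pow_zero]
    have h2 : ζ ^ (b s).val * α = 1 * α := by rw [← h1, one_mul]
    exact mul_right_cancel₀ hα0 h2

/-- Two Kummer characters agree on `G_L` iff the elements differ by a `p`-th power of `Lˣ`. -/
theorem kummerChar_eq_iff (hζ : IsPrimitiveRoot ζ p) (hroots : ∀ ω : Qbar, ω ^ p = 1 → ω ∈ L)
    {b b' : GQ → ZMod p} {α α' : Qbar} {a a' : Lˣ} (hα : IsKummerGen L ζ b α)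
    (hα' : IsKummerGen L ζ b' α') (ha : α ^ p = (((a : Lˣ) : L) : Qbar))
    (ha' : α' ^ p = (((a' : Lˣ) : L) : Qbar)) :
    (∀ τ ∈ L.fixingSubgroup, b τ = b' τ) ↔ ∃ c : Lˣ, a' = a * c ^ p := by
  haveI := isGalois_Qbar_kd
  have hp : p.Prime := Fact.out
  have hζ0 : ζ ≠ 0 := hζ.ne_zero hp.ne_zero
  obtain ⟨hα0, hαb⟩ := hα
  obtain ⟨hα'0, hα'b⟩ := hα'
  constructor
  · intro hbb
    -- `c = α' / α` is fixed by `G_L`
    have hc : α' / α ∈ L := by
      have h : α' / α ∈ IntermediateField.fixedField L.fixingSubgroup := by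
        rw [IntermediateField.mem_fixedField_iff]
        intro g hg
        rw [map_div₀, hαb g hg, hα'b g hg, hbb g hg]
        have := pow_ne_zero (b' g).val hζ0
        field_simp
      rwa [InfiniteGalois.fixedField_fixingSubgroup L] at h
    have hc0 : (⟨α' / α, hc⟩ : L) ≠ 0 := by
      intro h0
      have := congrArg Subtype.val h0
      exact div_ne_zero hα'0 hα0 this
    refine ⟨Units.mk0 ⟨α' / α, hc⟩ hc0, ?_⟩
    apply Units.ext
    apply Subtype.ext
    show (((a' : Lˣ) : L) : Qbar) = (((a : Lˣ) : L) : Qbar) * (α' / α) ^ p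
    rw [← ha, ← ha', div_pow]
    field_simp
  · rintro ⟨c, hc⟩ τ hτ
    have hτL : ∀ x : L, τ (x : Qbar) = x := fun x =>
      (IntermediateField.mem_fixingSubgroup_iff L τ).mp hτ x x.2
    have hc0 : (((c : Lˣ) : L) : Qbar) ≠ 0 := by
      intro h0
      exact c.ne_zero (Subtype.ext h0)
    have ha0 : (((a : Lˣ) : L) : Qbar) ≠ 0 := by
      intro h0
      exact a.ne_zero (Subtype.ext h0)
    set ω : Qbar := α' / (α * (((c : Lˣ) : L) : Qbar)) with hω
    have hωp : ω ^ p = 1 := by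
      rw [hω, div_pow, mul_pow, ha, ha', hc]
      push_cast
      field_simp
    have hωL : ω ∈ L := hroots ω hωp
    have hτω : τ ω = ω := hτL ⟨ω, hωL⟩
    have hτω' : τ ω = ζ ^ (b' τ).val / ζ ^ (b τ).val * ω := by
      rw [hω, map_div₀, map_mul, hτL, hαb τ hτ, hα'b τ hτ]
      field_simp
    have hω0 : ω ≠ 0 := by
      rw [hω]
      exact div_ne_zero hα'0 (mul_ne_zero hα0 hc0)
    have hζeq : ζ ^ (b' τ).val = ζ ^ (b τ).val := by
      have h5 : ζ ^ (b' τ).val / ζ ^ (b τ).val = 1 := by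
        have h6 : ζ ^ (b' τ).val / ζ ^ (b τ).val * ω = 1 * ω := by
          rw [← hτω', hτω, one_mul]
        exact mul_right_cancel₀ hω0 h6
      have h7 : ζ ^ (b τ).val ≠ 0 := pow_ne_zero _ hζ0
      field_simp at h5
      exact h5
    exact (zeta_pow_val_eq hζ hζeq).symm

end Basic

/-- The primes over `S` used in KD-4 are `primesOverS`. -/
theorem mem_primesOverS_iff (S : Finset Nat.Primes) (K : Type) [Field K] [NumberField K]
    (v : HeightOneSpectrum (𝓞 K)) :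
    v ∈ primesOverS S K ↔ ∃ q ∈ S, (((q : ℕ) : ℕ) : 𝓞 K) ∈ v.asIdeal := Iff.rfl

/-- A level character of `G_L` has a Selmer Kummer class (KD-1 + KD-2). -/
theorem exists_selmer_of_levelChar (h1 : Hilbert90LStatement) (h2 : KummerRamStatement)
    {p : ℕ} [Fact p.Prime] (S : Finset Nat.Primes) (L : IntermediateField ℚ Qbar)
    [NumberField L] (hroots : ∀ ω : Qbar, ω ^ p = 1 → ω ∈ L) {ζ : Qbar}
    (hζ : IsPrimitiveRoot ζ p) {b : GQ → ZMod p} (hb : IsLevelCharS S L b) :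
    ∃ (α : Qbar) (a : Lˣ), IsKummerGen L ζ b α ∧ α ^ p = (((a : Lˣ) : L) : Qbar) ∧
      IsSelmer S p a := by
  obtain ⟨hadd, F, hF, hvan⟩ := hb
  have hζL : ζ ∈ L := hroots ζ hζ.pow_eq_one
  obtain ⟨α, hα⟩ := h1 p L ζ hζ hζL b hadd ⟨F, hF.1, hvan⟩
  have hmem : α ^ p ∈ L := kummerGen_pow_mem hζ hα
  have hne : (⟨α ^ p, hmem⟩ : L) ≠ 0 := by
    intro h0
    have := congrArg Subtype.val h0
    exact pow_ne_zero p hα.1 this
  refine ⟨α, Units.mk0 ⟨α ^ p, hmem⟩ hne, hα, rfl, ?_⟩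
  intro v hv
  obtain ⟨ℓ, hℓ, hℓv⟩ := exists_prime_mem_heightOne L v
  have hℓS : (⟨ℓ, hℓ⟩ : Nat.Primes) ∉ S := fun hmemS => hv ⟨⟨ℓ, hℓ⟩, hmemS, hℓv⟩
  obtain ⟨A, hA, hAv⟩ := exists_place_over_heightOne L v hℓv
  refine h2 p L hroots α _ rfl A v hAv ?_
  intro σ hσ hσL
  have hσF : σ ∈ F.fixingSubgroup := hF.2 ⟨ℓ, hℓ⟩ hℓS A hA hσ
  rw [hα.2 σ hσL, hvan σ hσF hσL]
  simp

/-- **KD-8 from KD-1, KD-2, KD-7.** -/
theorem kummerBijection_of (h1 : Hilbert90LStatement) (h2 : KummerRamStatement)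
    (h7 : KummerLevelStatement) : KummerBijectionStatement := by
  intro p _ S hpS L _ hL hroots ζ hζ
  have hζL : ζ ∈ L := hroots ζ hζ.pow_eq_one
  refine ⟨fun b hb => exists_selmer_of_levelChar h1 h2 S L hroots hζ hb, ?_, ?_⟩
  · intro α a ha hsel
    have hα0 : α ≠ 0 := by
      intro h0
      rw [h0, zero_pow (Fact.out : p.Prime).ne_zero] at ha
      exact a.ne_zero (Subtype.ext ha.symm)
    have hαL : α ^ p ∈ L := by
      rw [ha]
      exact (a : L).2
    obtain ⟨b, hadd, hgen, hvan⟩ := kummerCharExists p L ζ hζ hζL α hα0 hαL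
    refine ⟨b, ⟨hadd, L ⊔ IntermediateField.adjoin ℚ {α}, h7 p S hpS L hL hroots α a ha hsel,
      fun s hs hsL => hvan s hsL ?_⟩, hgen⟩
    have hle : IntermediateField.adjoin ℚ {α} ≤ L ⊔ IntermediateField.adjoin ℚ {α} :=
      le_sup_right
    exact (IntermediateField.mem_fixingSubgroup_iff _ s).mp hs α
      (hle (IntermediateField.mem_adjoin_simple_self ℚ α))
  · intro b b' α α' a a' hα hα' ha ha'
    exact kummerChar_eq_iff hζ hroots hα hα' ha ha'

end Fermat.Agent.H54.Cft
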