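import Fermat.Agent.H54.Cft.KummerInterfaces3
import Fermat.Agent.H76.Cft.GlobalDefs

/-!
# P-CFT / [GO1]+[N6] (sub-lead helper54): interface

Target of the block (`KummerKernelBoundStatement`, "[N6']"): for a number field `L ≤ ℚ̄`
unramified outside `S ∋ p` with `μ_p ⊆ L`, the kernel of
`H²(G_S(L), μ_p) → H²(G_S(L), E_S)` has at most `#Cl_T(L)[p]` elements
(`T` = the primes of `L` over `S`, `E_S` = the `S`-units of `ℚ_S`), in elementary cocycle
language: cochains are functions on `G_L = ↥L.fixingSubgroup`, `S`-level means right-invariant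
under `G_F ∩ G_L` for a finite `F/ℚ` unramified outside `S`.

Route (no capitulation, no ideals of `ℚ_S`):  `ker = im δ ≅ H¹(G_S(L), E_S) / p`;
`H¹(G_S(L), E_S)` is a torsion group (`ESTorsionStatement`) whose `p`-torsion injects into
`Cl_T(L)[p]` through Selmer elements (`ESPTorsionBoundStatement`: Hilbert 90, Kummer
divisibility of `E_S`, KD-2, the Selmer class map); a torsion abelian group `H` with
`#H[p] ≤ K` has `#(H / p) ≤ K` (`TorsionQuotPowStatement`); the connecting map is computed with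
`p`-th roots in `E_S` (`KummerStepStatement`).

With the Hasse principle in the form `GO2ElemStatement` this bounds `Ш²(G_S(L), μ_p)`
(`Sha2BoundElemStatement`).
-/

set_option autoImplicit false

open IsDedekindDomain NumberField

namespace Fermat.Agent.H54.Cft

/-- `G_L` as a type. -/
abbrev GalL (L : IntermediateField ℚ Qbar) : Type := ↥L.fixingSubgroup

/-- The action of `G_ℚ` on `ℚ̄ˣ`. -/
noncomputable def galU (σ : GQ) : Qbarˣ →* Qbarˣ := Units.map (σ : Qbar →* Qbar)

@[simp] lemma coe_galU (σ : GQ) (u : Qbarˣ) : ((galU σ u : Qbarˣ) : Qbar) = σ (u : Qbar) := rfl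

/-- `x` is an `S`-level function on `G_L`: right-invariant under `G_F ∩ G_L` for some finite
`F/ℚ` unramified outside `S`. -/
def IsSLvl₁ (S : Finset Nat.Primes) (L : IntermediateField ℚ Qbar) {X : Type}
    (x : GalL L → X) : Prop :=
  ∃ F : IntermediateField ℚ Qbar, F.IsUnramifiedOutside S ∧
    ∀ g n : GalL L, (n : GQ) ∈ F.fixingSubgroup → x (g * n) = x g

/-- `c` is an `S`-level function on `G_L × G_L`. -/
def IsSLvl₂ (S : Finset Nat.Primes) (L : IntermediateField ℚ Qbar) {X : Type}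
    (c : GalL L × GalL L → X) : Prop :=
  ∃ F : IntermediateField ℚ Qbar, F.IsUnramifiedOutside S ∧
    ∀ g h n m : GalL L, (n : GQ) ∈ F.fixingSubgroup → (m : GQ) ∈ F.fixingSubgroup →
      c (g * n, h * m) = c (g, h)

/-- `S`-level `1`-cochains of `G_L` with values in `E_S`. -/
def IsESCochain (S : Finset Nat.Primes) (L : IntermediateField ℚ Qbar)
    (e : GalL L → Qbarˣ) : Prop :=
  IsSLvl₁ S L e ∧ ∀ g, e g ∈ Fermat.Agent.H76.Cft.ES S

/-- `S`-level `1`-cocycles of `G_L` with values in `E_S`: `c (g h) = g (c h) * c g`. -/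
def IsESCocycle (S : Finset Nat.Primes) (L : IntermediateField ℚ Qbar)
    (c : GalL L → Qbarˣ) : Prop :=
  (∀ g h : GalL L, c (g * h) = galU (g : GQ) (c h) * c g) ∧ IsESCochain S L c

/-- `1`-coboundaries with values in `E_S`: `c g = g u / u`, `u ∈ E_S`. -/
def IsESCoboundary (S : Finset Nat.Primes) (L : IntermediateField ℚ Qbar)
    (c : GalL L → Qbarˣ) : Prop :=
  ∃ u ∈ Fermat.Agent.H76.Cft.ES S, ∀ g : GalL L, c g = galU (g : GQ) u / u

/-- The `2`-cochain `x` with values in `ℤ/p ≅ μ_p` (via `ζ`) becomes a coboundary in `E_S`: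
`ζ ^ x (g, h) = g (e h) * e g / e (g h)` for an `S`-level cochain `e` with values in `E_S`. -/
def IsKummerKernel₂ (S : Finset Nat.Primes) (L : IntermediateField ℚ Qbar) {p : ℕ}
    (ζ : Qbarˣ) (x : GalL L × GalL L → ZMod p) : Prop :=
  ∃ e : GalL L → Qbarˣ, IsESCochain S L e ∧
    ∀ g h : GalL L, galU (g : GQ) (e h) * e g / e (g * h) = ζ ^ (x (g, h)).val

/-- `x` and `x'` differ by the coboundary of an `S`-level `1`-cochain (trivial action). -/
def IsSCohomologous₂ (S : Finset Nat.Primes) (L : IntermediateField ℚ Qbar) {p : ℕ}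
    (x x' : GalL L × GalL L → ZMod p) : Prop :=
  ∃ y : GalL L → ZMod p, IsSLvl₁ S L y ∧
    ∀ g h : GalL L, x (g, h) = x' (g, h) + (y h - y (g * h) + y g)

/-! ### Leaves -/

/-- **[N6-T]** `H¹(G_S(L), E_S)` is a torsion group: a power of every `S`-level cocycle with
values in `E_S` is the coboundary of an element of `E_S`. -/
def ESTorsionStatement : Prop :=
  ∀ (S : Finset Nat.Primes) (L : IntermediateField ℚ Qbar) (c : GalL L → Qbarˣ),
    IsESCocycle S L c → ∃ m : ℕ, 0 < m ∧ IsESCoboundary S L (c ^ m)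

/-- **[N6-P]** The `p`-torsion of `H¹(G_S(L), E_S)` has at most `#Cl_T(L)[p]` elements:
a finite set of cocycles with `p`-th power a coboundary, pairwise inequivalent modulo
coboundaries, has at most `clTorsionCard` elements. -/
def ESPTorsionBoundStatement : Prop :=
  ∀ (p : ℕ) [Fact p.Prime] (S : Finset Nat.Primes), ExtCitation.pPrime p ∈ S →
    ∀ (L : IntermediateField ℚ Qbar) [NumberField L], L.IsUnramifiedOutside S →
    (∀ ω : Qbar, ω ^ p = 1 → ω ∈ L) → ∀ (hT : (primesOverS S L).Finite)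
      (X : Finset (GalL L → Qbarˣ)),
      (∀ c ∈ X, IsESCocycle S L c ∧ IsESCoboundary S L (c ^ p)) →
      (∀ c ∈ X, ∀ c' ∈ X, IsESCoboundary S L (c * c'⁻¹) → c = c') →
      X.card ≤ clTorsionCard L (primesOverSFinset S L hT) p

/-- **[N6-G]** Pure group theory: if `Z / B` is a torsion group with at most `K` elements
killed by `p`, then `Z / (Z^p B)` has at most `K` elements (system of representatives). -/
def TorsionQuotPowStatement : Prop :=
  ∀ (Z : Type) [CommGroup Z] (B : Subgroup Z) (p K : ℕ), p.Prime →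
    (∀ z : Z, ∃ m : ℕ, 0 < m ∧ z ^ m ∈ B) →
    (∀ X : Finset Z, (∀ z ∈ X, z ^ p ∈ B) → (∀ z ∈ X, ∀ z' ∈ X, z * z'⁻¹ ∈ B → z = z') →
      X.card ≤ K) →
    ∃ R : Finset Z, R.card ≤ K ∧ ∀ z : Z, ∃ r ∈ R, ∃ w : Z, ∃ b ∈ B, z = r * w ^ p * b

/-- **[N6-K]** The Kummer step: representatives of `H¹(G_S(L), E_S) / p` give
representatives of the kernel of `H²(G_S(L), μ_p) → H²(G_S(L), E_S)`. -/
def KummerStepStatement : Prop :=
  ∀ (p : ℕ) [Fact p.Prime] (S : Finset Nat.Primes), ExtCitation.pPrime p ∈ S →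
    ∀ (L : IntermediateField ℚ Qbar) (ζ : Qbarˣ), IsPrimitiveRoot (ζ : Qbar) p →
    (ζ : Qbar) ∈ L →
    ∀ R : Finset (GalL L → Qbarˣ), (∀ r ∈ R, IsESCocycle S L r) →
      (∀ c : GalL L → Qbarˣ, IsESCocycle S L c →
        ∃ r ∈ R, ∃ w : GalL L → Qbarˣ, IsESCocycle S L w ∧
          IsESCoboundary S L (c * (r * w ^ p)⁻¹)) →
      ∃ R' : Finset (GalL L × GalL L → ZMod p), R'.card ≤ R.card ∧
        ∀ x : GalL L × GalL L → ZMod p, IsKummerKernel₂ S L ζ x →
          ∃ r' ∈ R', IsSCohomologous₂ S L x r'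

/-! ### Targets -/

/-- **[N6']** The kernel of `H²(G_S(L), μ_p) → H²(G_S(L), E_S)` has at most `#Cl_T(L)[p]`
elements. -/
def KummerKernelBoundStatement : Prop :=
  ∀ (p : ℕ) [Fact p.Prime] (S : Finset Nat.Primes), ExtCitation.pPrime p ∈ S →
    ∀ (L : IntermediateField ℚ Qbar) [NumberField L], L.IsUnramifiedOutside S →
    (∀ ω : Qbar, ω ^ p = 1 → ω ∈ L) → ∀ (hT : (primesOverS S L).Finite) (ζ : Qbarˣ),
    IsPrimitiveRoot (ζ : Qbar) p →
      ∃ R' : Finset (GalL L × GalL L → ZMod p),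
        R'.card ≤ clTorsionCard L (primesOverSFinset S L hT) p ∧
        ∀ x : GalL L × GalL L → ZMod p, IsKummerKernel₂ S L ζ x →
          ∃ r' ∈ R', IsSCohomologous₂ S L x r'

/-- `2`-cocycles for the trivial action. -/
def IsCocycle₂ {G A : Type} [Group G] [AddCommGroup A] (x : G × G → A) : Prop :=
  ∀ g h k : G, x (h, k) - x (g * h, k) + x (g, h * k) - x (g, h) = 0

/-- `x` is locally trivial at the place `A` of `ℚ̄`: on the decomposition group of `A` in `G_L`
it is the coboundary of a level `1`-cochain (all levels). -/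
def IsLocTrivAt (L : IntermediateField ℚ Qbar) {p : ℕ} (A : ValuationSubring Qbar)
    (x : GalL L × GalL L → ZMod p) : Prop :=
  ∃ y : GalL L → ZMod p,
    (∃ F : IntermediateField ℚ Qbar, FiniteDimensional ℚ F ∧
      ∀ g n : GalL L, (g : GQ) ∈ A.decompositionSubgroup ℚ →
        (n : GQ) ∈ A.decompositionSubgroup ℚ → (n : GQ) ∈ F.fixingSubgroup →
        y (g * n) = y g) ∧
    ∀ g h : GalL L, (g : GQ) ∈ A.decompositionSubgroup ℚ →
      (h : GQ) ∈ A.decompositionSubgroup ℚ → x (g, h) = y h - y (g * h) + y g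

/-- **[GO2], elementary form** (= Hasse principle + BRAUER-S; hypothesis of this block):
an `S`-level `2`-cocycle with values in `μ_p` which is locally trivial at every place over `S`
becomes a coboundary in `E_S`. -/
def GO2ElemStatement : Prop :=
  ∀ (p : ℕ) [Fact p.Prime], p ≠ 2 → ∀ (S : Finset Nat.Primes), ExtCitation.pPrime p ∈ S →
    ∀ (L : IntermediateField ℚ Qbar) [NumberField L], L.IsUnramifiedOutside S →
    (∀ ω : Qbar, ω ^ p = 1 → ω ∈ L) → ∀ (ζ : Qbarˣ), IsPrimitiveRoot (ζ : Qbar) p →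
    ∀ x : GalL L × GalL L → ZMod p, IsCocycle₂ x → IsSLvl₂ S L x →
      (∀ (q : Nat.Primes), q ∈ S → ∀ A : ValuationSubring Qbar, A.LiesOverPrime (q : ℕ) →
        IsLocTrivAt L A x) →
      IsKummerKernel₂ S L ζ x

/-- **[N6], elementary form**: `Ш²(G_S(L), μ_p)` has at most `#Cl_T(L)[p]` elements. -/
def Sha2BoundElemStatement : Prop :=
  ∀ (p : ℕ) [Fact p.Prime], p ≠ 2 → ∀ (S : Finset Nat.Primes), ExtCitation.pPrime p ∈ S →
    ∀ (L : IntermediateField ℚ Qbar) [NumberField L], L.IsUnramifiedOutside S →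
    (∀ ω : Qbar, ω ^ p = 1 → ω ∈ L) → ∀ (hT : (primesOverS S L).Finite),
      ∃ R' : Finset (GalL L × GalL L → ZMod p),
        R'.card ≤ clTorsionCard L (primesOverSFinset S L hT) p ∧
        ∀ x : GalL L × GalL L → ZMod p, IsCocycle₂ x → IsSLvl₂ S L x →
          (∀ (q : Nat.Primes), q ∈ S → ∀ A : ValuationSubring Qbar,
            A.LiesOverPrime (q : ℕ) → IsLocTrivAt L A x) →
          ∃ r' ∈ R', IsSCohomologous₂ S L x r'

end Fermat.Agent.H54.Cft
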