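import Fermat.Prelude.Def_GroupCohomology_ContinuousUnramified

/-!
# P-CFT / KUMMER DICTIONARY (sub-lead helper54): interface

Exact `Prop`s of the Kummer block of P-CFT (row 402, item [N](e); findings #369), in neutral
shapes: fields are intermediate fields of `ℚ̄ = AlgebraicClosure ℚ`, Galois groups are
`L.fixingSubgroup ≤ G_ℚ`, characters are functions `b : G_ℚ → ZMod p` additive on `G_L`,
places are valuation subrings of `ℚ̄` (prelude) resp. `HeightOneSpectrum (𝓞 L)` (Mathlib).

* `Hilbert90LStatement` (KD-1): a level character of `G_L` (`ζ_p ∈ L`, `L` ARBITRARY) is the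
  Kummer character of some `α ≠ 0`.
* `KummerRamStatement` (KD-2): if inertia at `A` kills the Kummer character of `α`, `α ^ p = a`,
  then `p ∣ ord_v a` for the prime `v` of `L` under `A`.
* `KummerUnramStatement` (KD-2'): converse at residue characteristic `≠ p`.
* `SelmerFiniteStatement` (KD-3): `{a : p ∣ ord_v a for v ∉ T} / p`-th powers is finite.
* `LevelCharFiniteStatement` (KD-4): finitely many `S`-level characters `G_L → ZMod p`.
* `ContinuousH1SFiniteStatement` (KD-5): `continuousH1S S M` is finite-dimensional.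
-/

set_option autoImplicit false

open IsDedekindDomain NumberField

namespace Fermat.Agent.H54.Cft

/-- `ℚ̄`. -/
abbrev Qbar : Type := AlgebraicClosure ℚ

/-- The absolute Galois group of `ℚ`. -/
abbrev GQ : Type := AlgebraicClosure ℚ ≃ₐ[ℚ] AlgebraicClosure ℚ

/-- `b` is additive on `G_L`. -/
def IsAddCharOn (L : IntermediateField ℚ Qbar) {p : ℕ} (b : GQ → ZMod p) : Prop :=
  ∀ σ ∈ L.fixingSubgroup, ∀ τ ∈ L.fixingSubgroup, b (σ * τ) = b σ + b τ

/-- `α` is a Kummer generator for the character `b` of `G_L`: `τ α = ζ ^ (b τ) α`. -/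
def IsKummerGen (L : IntermediateField ℚ Qbar) {p : ℕ} (ζ : Qbar) (b : GQ → ZMod p)
    (α : Qbar) : Prop :=
  α ≠ 0 ∧ ∀ τ ∈ L.fixingSubgroup, τ α = ζ ^ (b τ).val * α

/-- **KD-1 (Hilbert 90 over `L`)**: `L ≤ ℚ̄` any intermediate field containing a primitive
`p`-th root of unity `ζ`; every character `b : G_L → ℤ/p` vanishing on `G_L ∩ G_F` for some
finite `F` has a Kummer generator. -/
def Hilbert90LStatement : Prop :=
  ∀ (p : ℕ) [Fact p.Prime] (L : IntermediateField ℚ Qbar) (ζ : Qbar), IsPrimitiveRoot ζ p →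
    ζ ∈ L → ∀ b : GQ → ZMod p, IsAddCharOn L b →
      (∃ F : IntermediateField ℚ Qbar, FiniteDimensional ℚ F ∧
        ∀ s ∈ F.fixingSubgroup, s ∈ L.fixingSubgroup → b s = 0) →
      ∃ α : Qbar, IsKummerGen L ζ b α

/-- The place `A` of `ℚ̄` lies over the prime `v` of the number field `L`. -/
def LiesOverHeightOne (L : IntermediateField ℚ Qbar) [NumberField L]
    (A : ValuationSubring Qbar) (v : HeightOneSpectrum (𝓞 L)) : Prop :=
  ∀ x : 𝓞 L, x ∈ v.asIdeal → ((x : L) : Qbar) ∈ A.nonunits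

/-- `p ∣ ord_v a`. -/
def OrdDvdAt {K : Type} [Field K] [NumberField K] (p : ℕ) (v : HeightOneSpectrum (𝓞 K))
    (a : Kˣ) : Prop :=
  (p : ℤ) ∣ Multiplicative.toAdd (v.valuationOfNeZero a)

/-- **KD-2 (ramification, hard direction)**: `L` a number field containing `μ_p`, `α ^ p = a ∈ Lˣ`,
`A` a place of `ℚ̄` over the prime `v` of `L`.  If every element of the inertia group of `A`
fixing `L` fixes `α`, then `p ∣ ord_v a`.  (Any residue characteristic.) -/
def KummerRamStatement : Prop :=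
  ∀ (p : ℕ) [Fact p.Prime] (L : IntermediateField ℚ Qbar) [NumberField L],
    (∀ ω : Qbar, ω ^ p = 1 → ω ∈ L) →
    ∀ (α : Qbar) (a : Lˣ), α ^ p = (((a : Lˣ) : L) : Qbar) →
    ∀ (A : ValuationSubring Qbar) (v : HeightOneSpectrum (𝓞 L)), LiesOverHeightOne L A v →
      (∀ σ ∈ A.inertiaSubgroupIn ℚ, σ ∈ L.fixingSubgroup → σ α = α) → OrdDvdAt p v a

/-- **KD-2' (ramification, easy direction)**: if `p ∣ ord_v a` and the residue characteristic of
`A` is not `p`, the inertia group of `A` inside `G_L` fixes every `p`-th root of `a`. -/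
def KummerUnramStatement : Prop :=
  ∀ (p : ℕ) [Fact p.Prime] (L : IntermediateField ℚ Qbar) [NumberField L],
    (∀ ω : Qbar, ω ^ p = 1 → ω ∈ L) →
    ∀ (α : Qbar) (a : Lˣ), α ^ p = (((a : Lˣ) : L) : Qbar) →
    ∀ (A : ValuationSubring Qbar) (v : HeightOneSpectrum (𝓞 L)), LiesOverHeightOne L A v →
      ¬ A.LiesOverPrime p → OrdDvdAt p v a →
      ∀ σ ∈ A.inertiaSubgroupIn ℚ, σ ∈ L.fixingSubgroup → σ α = α

/-- **KD-3 (finiteness of the Selmer group)**: for a number field `K`, a finite set `T` of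
primes and `n > 0`, the group `{a ∈ Kˣ : n ∣ ord_v a for all v ∉ T}` is finite modulo `n`-th
powers (finite set of representatives). -/
def SelmerFiniteStatement : Prop :=
  ∀ (K : Type) [Field K] [NumberField K] (T : Finset (HeightOneSpectrum (𝓞 K))) (n : ℕ),
    0 < n → ∃ R : Finset Kˣ, ∀ a : Kˣ,
      (∀ v : HeightOneSpectrum (𝓞 K), v ∉ T → OrdDvdAt n v a) →
      ∃ r ∈ R, ∃ c : Kˣ, a = r * c ^ n

/-- `b` is an `S`-level character of `G_L`: additive on `G_L` and vanishing on `G_L ∩ G_F` for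
some finite `F` unramified outside `S`. -/
def IsLevelCharS (S : Finset Nat.Primes) (L : IntermediateField ℚ Qbar) {p : ℕ}
    (b : GQ → ZMod p) : Prop :=
  IsAddCharOn L b ∧ ∃ F : IntermediateField ℚ Qbar, F.IsUnramifiedOutside S ∧
    ∀ s ∈ F.fixingSubgroup, s ∈ L.fixingSubgroup → b s = 0

/-- **KD-4 (finiteness of `H¹(G_{L,S}, ℤ/p)`)**: for a number field `L ∋ ζ_p` there are finitely
many `S`-level characters of `G_L`: a finite list `bs` of them such that every `S`-level
character agrees on `G_L` with a member of the list. -/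
def LevelCharFiniteStatement : Prop :=
  ∀ (p : ℕ) [Fact p.Prime] (S : Finset Nat.Primes) (L : IntermediateField ℚ Qbar),
    FiniteDimensional ℚ L → (∀ ω : Qbar, ω ^ p = 1 → ω ∈ L) →
    ∃ bs : Finset (GQ → ZMod p), ∀ b : GQ → ZMod p, IsLevelCharS S L b →
      ∃ b' ∈ bs, ∀ τ ∈ L.fixingSubgroup, b τ = b' τ

/-- **KD-5 (finiteness of `H¹_S`)**: for a finite-dimensional smooth `𝔽_p[G_ℚ]`-module `M` the
space `continuousH1S S M` of `S`-level classes is finite-dimensional. -/
def ContinuousH1SFiniteStatement : Prop :=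
  ∀ (p : ℕ) [Fact p.Prime] (S : Finset Nat.Primes) (M : Rep (ZMod p) GQ)
    [FiniteDimensional (ZMod p) M],
    (∀ m : M, ∃ F : IntermediateField ℚ Qbar, FiniteDimensional ℚ F ∧
      ∀ s ∈ F.fixingSubgroup, M.ρ s m = m) →
    Module.Finite (ZMod p) (groupCohomology.continuousH1S S M)

end Fermat.Agent.H54.Cft
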