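import Fermat.Agent.H54.Cft.KummerChar

/-!
# P-CFT / KUMMER DICTIONARY, KD-7 (helper54)

`kummerLevel_of : KummerUnramStatement → KummerLevelStatement`: for `L` unramified outside
`S ∋ p` and a Selmer element `a = α ^ p`, the field `L(α)` is unramified outside `S`.

Also the dictionary "place of `ℚ̄` ↦ prime of `L`":
* `integer_mem_place` : `𝓞 L ⊆ A`;
* `exists_heightOne_under` : every place `A` of `ℚ̄` over `q` lies over a prime `v` of `L`
  containing `q`;
* `liesOverPrime_unique` : a place lies over at most one rational prime.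
-/

set_option autoImplicit false
set_option linter.style.haveILetI false

open IsDedekindDomain NumberField

namespace Fermat.Agent.H54.Cft

/-- Algebraic integers of `L` lie in every valuation subring of `ℚ̄`. -/
theorem integer_mem_place (L : IntermediateField ℚ Qbar) [NumberField L]
    (A : ValuationSubring Qbar) (x : 𝓞 L) : (((x : L)) : Qbar) ∈ A := by
  have hx : IsIntegral ℤ (x : L) := x.2
  have hx1 : IsIntegral ℤ (((x : L)) : Qbar) := map_isIntegral_int (algebraMap L Qbar) hx
  have hx2 : IsIntegral A (((x : L)) : Qbar) := IsIntegral.tower_top (R := ℤ) hx1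
  obtain ⟨y, hy⟩ := IsIntegrallyClosed.isIntegral_iff.mp hx2
  rw [← hy]
  exact y.2

/-- A place of `ℚ̄` lies over at most one rational prime. -/
theorem liesOverPrime_unique (A : ValuationSubring Qbar) {q q' : ℕ} (hq : q.Prime)
    (hq' : q'.Prime) (hA : A.LiesOverPrime q) (hA' : A.LiesOverPrime q') : q = q' := by
  by_contra hne
  have hcop : IsCoprime (q : ℤ) (q' : ℤ) :=
    Nat.isCoprime_iff_coprime.mpr ((Nat.coprime_primes hq hq').mpr hne)
  obtain ⟨a, b, hab⟩ := hcop
  have h1 : ((a : Qbar)) * (q : Qbar) + (b : Qbar) * (q' : Qbar) = 1 := by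
    have := congrArg (Int.cast : ℤ → Qbar) hab
    push_cast at this
    exact this
  have ha : ((a : ℤ) : Qbar) ∈ A := intCast_mem A a
  have hb : ((b : ℤ) : Qbar) ∈ A := intCast_mem A b
  have hq1 : A.valuation ((a : Qbar) * (q : Qbar)) < 1 := by
    rw [map_mul]
    exact mul_lt_one_of_nonneg_of_lt_one_right ((A.valuation_le_one_iff _).mpr ha) zero_le
      (A.mem_nonunits_iff.mp hA)
  have hq2 : A.valuation ((b : Qbar) * (q' : Qbar)) < 1 := by
    rw [map_mul]
    exact mul_lt_one_of_nonneg_of_lt_one_right ((A.valuation_le_one_iff _).mpr hb) zero_le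
      (A.mem_nonunits_iff.mp hA')
  have h2 : A.valuation (1 : Qbar) < 1 := by
    rw [← h1]
    exact lt_of_le_of_lt (A.valuation.map_add _ _) (max_lt hq1 hq2)
  rw [map_one] at h2
  exact lt_irrefl _ h2

/-- Every place `A` of `ℚ̄` over `q` lies over a prime `v` of `L` containing `q`. -/
theorem exists_heightOne_under (L : IntermediateField ℚ Qbar) [NumberField L]
    (A : ValuationSubring Qbar) {q : ℕ} (hq : q.Prime) (hA : A.LiesOverPrime q) :
    ∃ v : HeightOneSpectrum (𝓞 L), LiesOverHeightOne L A v ∧ ((q : ℕ) : 𝓞 L) ∈ v.asIdeal := by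
  let φ : 𝓞 L →+* Qbar := (algebraMap L Qbar).comp (algebraMap (𝓞 L) L)
  let ψ : 𝓞 L →+* A := φ.codRestrict A.toSubring (fun x => integer_mem_place L A x)
  let P : Ideal (𝓞 L) := Ideal.comap ψ (IsLocalRing.maximalIdeal A)
  have hPmem : ∀ x : 𝓞 L, x ∈ P ↔ (((x : L)) : Qbar) ∈ A.nonunits := by
    intro x
    show ψ x ∈ IsLocalRing.maximalIdeal A ↔ _
    rw [← ValuationSubring.coe_mem_nonunits_iff]
    rfl
  have hqP : ((q : ℕ) : 𝓞 L) ∈ P := by
    rw [hPmem]
    have : (((((q : ℕ) : 𝓞 L) : L)) : Qbar) = (q : Qbar) := by simp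
    rw [this]
    exact hA
  have hPprime : P.IsPrime := Ideal.comap_isPrime ψ _
  have hPbot : P ≠ ⊥ := by
    intro h0
    rw [h0, Ideal.mem_bot] at hqP
    have : (q : ℕ) = 0 := by exact_mod_cast hqP
    exact hq.ne_zero this
  exact ⟨⟨P, hPprime, hPbot⟩, fun x hx => (hPmem x).mp hx, hqP⟩

/-- **KD-7 from KD-2b.** -/
theorem kummerLevel_of (h2b : KummerUnramStatement) : KummerLevelStatement := by
  intro p _ S hpS L _ hL hroots α a ha hsel
  haveI := isGalois_Qbar_kd
  have hp : p.Prime := Fact.out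
  have hαint : IsIntegral ℚ α := Algebra.IsSeparable.isIntegral ℚ α
  haveI : FiniteDimensional ℚ (IntermediateField.adjoin ℚ ({α} : Set Qbar)) :=
    IntermediateField.adjoin.finiteDimensional hαint
  haveI : FiniteDimensional ℚ L := hL.1
  refine ⟨IntermediateField.finiteDimensional_sup _ _, fun q hq A hA σ hσ => ?_⟩
  have hσL : σ ∈ L.fixingSubgroup := hL.2 q hq A hA hσ
  obtain ⟨v, hAv, hqv⟩ := exists_heightOne_under L A q.2 hA
  have hv : v ∉ primesOverS S L := by
    rintro ⟨q', hq'S, hq'v⟩
    have hA' : A.LiesOverPrime (q' : ℕ) := by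
      have := hAv _ hq'v
      simpa [ValuationSubring.LiesOverPrime] using this
    have hqq : (q : ℕ) = (q' : ℕ) := liesOverPrime_unique A q.2 q'.2 hA hA'
    have : q = q' := Subtype.ext hqq
    exact hq (this ▸ hq'S)
  have hnp : ¬ A.LiesOverPrime p := by
    intro hAp
    have hqq : (q : ℕ) = p := liesOverPrime_unique A q.2 hp hA hAp
    have : q = ExtCitation.pPrime p := Subtype.ext hqq
    exact hq (this ▸ hpS)
  have hσα : σ α = α := h2b p L hroots α a ha A v hAv hnp (hsel v hv) σ hσ hσL
  rw [IntermediateField.fixingSubgroup_sup]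
  refine ⟨hσL, ?_⟩
  have hle : IntermediateField.adjoin ℚ ({α} : Set Qbar) ≤
      IntermediateField.fixedField (Subgroup.zpowers σ) := by
    rw [IntermediateField.adjoin_simple_le_iff, IntermediateField.mem_fixedField_iff]
    intro g hg
    have hstab : Subgroup.zpowers σ ≤ MulAction.stabilizer GQ α := by
      rw [Subgroup.zpowers_le]
      exact hσα
    exact hstab hg
  exact (IntermediateField.le_iff_le (Subgroup.zpowers σ) _).mp hle (Subgroup.mem_zpowers σ)

/-- **KD-8 from KD-1, KD-2, KD-2b.** -/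
theorem kummerBijection_of_leaves (h1 : Hilbert90LStatement) (h2 : KummerRamStatement)
    (h2b : KummerUnramStatement) : KummerBijectionStatement :=
  kummerBijection_of h1 h2 (kummerLevel_of h2b)

end Fermat.Agent.H54.Cft
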