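import Fermat.Agent.H54.Cft.N6Interfaces

/-!
# P-CFT / [GO2'] (sub-lead helper54): interface

Target: `GO2ElemStatement` (`N6Interfaces`): an `S`-level `2`-cocycle `x` of `G_L` with values
in `ℤ/p ≅ μ_p`, locally trivial at the places over `S`, becomes a coboundary in `E_S`.

Route:
* `UnramLocTrivStatement` [UNR-LOC] : `x` is locally trivial at the places outside `S`;
* `HasseMuStatement` [HASSE] : a level `2`-cocycle of `G_L` with values in `ℤ/p` which is
  locally trivial at every finite place is a level coboundary (all levels);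
* `Inf2SStatement` [INF2-S] : if `ζ ^ x = d b₀` with `b₀` a level cochain with values in `ℚ̄ˣ`,
  then `ζ ^ x = d b₁` with `b₁` an `S`-level cochain with values in `ℚ_Sˣ`;
* `DivCoboundaryStatement` [DIV] : for an `S`-level cochain `b` with values in `ℚ_Sˣ` whose
  coboundary is `E_S`-valued, the divisor cocycle `g ↦ div (b g)` outside `S` is a coboundary
  `g ↦ D - g D`, and `n D = div β` is principal for some `n > 0` (finiteness of class groups);
* `CapPlusStatement` [CAP+] : then `b ^ m * (g α / α)` is `E_S`-valued for some `m ≡ 1 mod p`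
  and some `α ∈ ℚ_Sˣ` (from [DIV] and `capVal`).
-/

set_option autoImplicit false

open IsDedekindDomain NumberField

namespace Fermat.Agent.H54.Cft

open Fermat.Agent.H76.Cft (QS ES IsPlaceOutside)

/-- Level functions on `G_L` (all levels): right-invariant under `G_F ∩ G_L`, `F/ℚ` finite. -/
def IsLvlAll₁ (L : IntermediateField ℚ Qbar) {X : Type} (x : GalL L → X) : Prop :=
  ∃ F : IntermediateField ℚ Qbar, FiniteDimensional ℚ F ∧
    ∀ g n : GalL L, (n : GQ) ∈ F.fixingSubgroup → x (g * n) = x g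

/-- Level functions on `G_L × G_L` (all levels). -/
def IsLvlAll₂ (L : IntermediateField ℚ Qbar) {X : Type} (c : GalL L × GalL L → X) : Prop :=
  ∃ F : IntermediateField ℚ Qbar, FiniteDimensional ℚ F ∧
    ∀ g h n m : GalL L, (n : GQ) ∈ F.fixingSubgroup → (m : GQ) ∈ F.fixingSubgroup →
      c (g * n, h * m) = c (g, h)

/-- **[UNR-LOC]** An `S`-level `2`-cocycle with values in `ℤ/p` is locally trivial at every
place outside `S` (the decomposition group modulo inertia is procyclic). -/
def UnramLocTrivStatement : Prop :=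
  ∀ (p : ℕ) [Fact p.Prime] (S : Finset Nat.Primes) (L : IntermediateField ℚ Qbar)
    [NumberField L] (x : GalL L × GalL L → ZMod p), IsCocycle₂ x → IsSLvl₂ S L x →
    ∀ (q : Nat.Primes), q ∉ S → ∀ A : ValuationSubring Qbar, A.LiesOverPrime (q : ℕ) →
      IsLocTrivAt L A x

/-- **[HASSE]** (Hasse principle for `Br(L)[p] = H²(G_L, μ_p)`, elementary form): a level
`2`-cocycle of `G_L` with values in `ℤ/p` (`μ_p ⊆ L`) which is locally trivial at every finite
place of `ℚ̄` is the coboundary of a level `1`-cochain. -/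
def HasseMuStatement : Prop :=
  ∀ (p : ℕ) [Fact p.Prime], p ≠ 2 → ∀ (L : IntermediateField ℚ Qbar) [NumberField L],
    (∀ ω : Qbar, ω ^ p = 1 → ω ∈ L) →
    ∀ x : GalL L × GalL L → ZMod p, IsCocycle₂ x → IsLvlAll₂ L x →
      (∀ (q : Nat.Primes) (A : ValuationSubring Qbar), A.LiesOverPrime (q : ℕ) →
        IsLocTrivAt L A x) →
      ∃ y : GalL L → ZMod p, IsLvlAll₁ L y ∧
        ∀ g h : GalL L, x (g, h) = y h - y (g * h) + y g

/-- **[INF2-S]** Inflation-restriction: if `ζ ^ x` (`x` an `S`-level cochain) is the coboundary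
of a level cochain with values in `ℚ̄ˣ`, it is the coboundary of an `S`-level cochain with
values in `ℚ_Sˣ`. -/
def Inf2SStatement : Prop :=
  ∀ (p : ℕ) [Fact p.Prime] (S : Finset Nat.Primes) (L : IntermediateField ℚ Qbar),
    L.IsUnramifiedOutside S →
    ∀ (ζ : Qbarˣ), IsPrimitiveRoot (ζ : Qbar) p → (ζ : Qbar) ∈ L →
    ∀ x : GalL L × GalL L → ZMod p, IsSLvl₂ S L x →
    ∀ b₀ : GalL L → Qbarˣ, IsLvlAll₁ L b₀ →
      (∀ g h : GalL L, galU (g : GQ) (b₀ h) * b₀ g / b₀ (g * h) = ζ ^ (x (g, h)).val) →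
      ∃ b₁ : GalL L → Qbarˣ, IsSLvl₁ S L b₁ ∧ (∀ g, ((b₁ g : Qbarˣ) : Qbar) ∈ QS S) ∧
        ∀ g h : GalL L, galU (g : GQ) (b₁ h) * b₁ g / b₁ (g * h) = ζ ^ (x (g, h)).val

/-- **[DIV]** The divisor cocycle of a cochain with `E_S`-valued coboundary is a coboundary,
and a multiple of the bounding divisor is principal: there are `n > 0` and `β ∈ ℚ_Sˣ` with
`|b g|_A ^ n = |g β / β|_A` at all places `A` outside `S`, the value of `β` at `A` being the
`n`-th power of a value of `ℚ_Sˣ`. -/
def DivCoboundaryStatement : Prop :=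
  ∀ (S : Finset Nat.Primes) (L : IntermediateField ℚ Qbar) [NumberField L],
    L.IsUnramifiedOutside S →
    ∀ b : GalL L → Qbarˣ, IsSLvl₁ S L b → (∀ g, ((b g : Qbarˣ) : Qbar) ∈ QS S) →
      (∀ g h : GalL L, galU (g : GQ) (b h) * b g / b (g * h) ∈ ES S) →
      ∃ (n : ℕ) (β : Qbarˣ), 0 < n ∧ (β : Qbar) ∈ QS S ∧
        (∀ A : ValuationSubring Qbar, IsPlaceOutside S A → ∀ g : GalL L,
          A.valuation ((b g : Qbarˣ) : Qbar) ^ n
            = A.valuation ((galU (g : GQ) β / β : Qbarˣ) : Qbar)) ∧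
        ∀ A : ValuationSubring Qbar, IsPlaceOutside S A →
          ∃ γ : Qbarˣ, (γ : Qbar) ∈ QS S ∧
            A.valuation (β : Qbar) = A.valuation (γ : Qbar) ^ n

/-- **[CAP+]** Capitulation for cochains: an `S`-level cochain `b` with values in `ℚ_Sˣ` and
`E_S`-valued coboundary can be corrected, after raising to a power `m ≡ 1 mod p`, by a
coboundary of an element of `ℚ_Sˣ` to an `E_S`-valued cochain. -/
def CapPlusStatement : Prop :=
  ∀ (p : ℕ) [Fact p.Prime] (S : Finset Nat.Primes), ExtCitation.pPrime p ∈ S →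
    ∀ (L : IntermediateField ℚ Qbar) [NumberField L], L.IsUnramifiedOutside S →
    ∀ b : GalL L → Qbarˣ, IsSLvl₁ S L b → (∀ g, ((b g : Qbarˣ) : Qbar) ∈ QS S) →
      (∀ g h : GalL L, galU (g : GQ) (b h) * b g / b (g * h) ∈ ES S) →
      ∃ (m : ℕ) (α : Qbarˣ), m % p = 1 ∧ (α : Qbar) ∈ QS S ∧
        ∀ g : GalL L, b g ^ m * (α / galU (g : GQ) α) ∈ ES S

end Fermat.Agent.H54.Cft
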