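import Fermat.Agent.H54.Cft.GO2Final
import Fermat.Agent.H24.Hasse.HasseMu
import Fermat.Agent.H97.Hasse.Assembly
import Fermat.Agent.H97.Hasse.LocalNorm
import Fermat.Agent.H85.Hasse.SplitInfl
import Fermat.Agent.H84.Hasse.UnramSettingExists
import Fermat.Agent.H79.Hasse.PGroupTower
import Fermat.Agent.H96.Hasse.SylowReduction
import Fermat.Agent.H89.Hasse.DecField

/-!
# P-CFT / [GO2'] + [N6] (sub-lead helper54): UNCONDITIONAL results

* `hasseBr : Fermat.Agent.H97.Hasse.HasseStatement` : the Hasse principle for the `p`-primary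
  part of the Brauer group of a number field (assembly of helper97's [HASSE] block from its
  landed leaves: helper85 `splitInfl`, helper97 `locNormOfLocTriv` (helper2, helper87, helper44,
  helper89), helper84 `unramSettingExists`, helper79 `pGroupTower`, helper96 `sylowReduction`,
  helper43 `hasseNorm`);
* `hasseMu : HasseMuStatement` (helper24's bridge);
* `go2Elem : GO2ElemStatement`;
* `sha2BoundElem : Sha2BoundElemStatement` : `#Ш²(G_S(L), μ_p) ≤ #Cl_T(L)[p]`.
-/

set_option autoImplicit false

namespace Fermat.Agent.H54.Cft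

/-- **[HASSE]** the Hasse principle for `Br(K)[p^∞]` (unconditional). -/
theorem hasseBr : Fermat.Agent.H97.Hasse.HasseStatement :=
  Fermat.Agent.H97.Hasse.hasse_of
    (Fermat.Agent.H97.Hasse.pGroupHasse_of
      (Fermat.Agent.H97.Hasse.cyclicHasse_of Fermat.Agent.H85.Hasse.splitInfl
        Fermat.Agent.H97.Hasse.locNormOfLocTriv
        Fermat.Agent.H84.Hasse.unramSettingExists)
      Fermat.Agent.H79.Hasse.pGroupTower)
    Fermat.Agent.H96.Hasse.sylowReduction

/-- **[HASSE], `μ_p`-form** (unconditional). -/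
theorem hasseMu : HasseMuStatement :=
  Fermat.Agent.H24.Hasse.hasseMu_of hasseBr Fermat.Agent.H89.Hasse.decClosed

/-- **[GO2']** (unconditional). -/
theorem go2Elem : GO2ElemStatement :=
  go2Elem_of_hasse hasseMu

/-- **[N6]** (unconditional): `#Ш²(G_S(L), μ_p) ≤ #Cl_T(L)[p]`. -/
theorem sha2BoundElem : Sha2BoundElemStatement :=
  sha2BoundElem_of_hasse hasseMu

end Fermat.Agent.H54.Cft
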