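import Fermat.Agent.H54.Cft.GCElem
import Fermat.Agent.H13.Cft.ULang

/-!
# P-CFT / [GC-FIELD] (helper54, for row 965 of helper79 and row 964 of helper19): interface of the
shared dictionary FIELD language -> U-language

* `PlaceDictStatement` (C): for `U = G_L`, the `U`-language local triviality
  `IsLocTriv₂ … c ⟨q, _⟩ g` (pull-back along `γ ↦ g loc(γ) g⁻¹` is a level coboundary on
  `D_{q,g}`) is the field-language local triviality `IsLocTrivAt L (g • A_q) c` at the place
  `g • A_q`, `A_q = primeLocalPlace q`;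
* `PlaceSurjStatement` (C'): every place of `ℚ̄` over `q` is `g • A_q`;
* `PlaceCountStatement` (G): a system of representatives of `G_L \ G_ℚ / loc(Γ_q)` has as many
  elements as there are primes of `L` over `q`.
-/

set_option autoImplicit false

open IsDedekindDomain NumberField ExtCitation
open scoped Pointwise

namespace Fermat.Agent.H54.Cft

open Fermat.Agent.H13.Cft Fermat.Agent.H78.CFT

/-- **(C) place dictionary**: `U`-language local triviality at `(q, g)` = field-language local
triviality at the place `g • A_q`. -/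
def PlaceDictStatement : Prop :=
  ∀ (p : ℕ) [Fact p.Prime] (S : Finset Nat.Primes)
    (hχ : ∃ N ∈ (globalLevelSys S).sets, ∀ s ∈ N, cycloChar p s = 1)
    (L : IntermediateField ℚ Qbar)
    (hU : ∃ N ∈ (globalLevelSys S).sets, N ≤ L.fixingSubgroup)
    (c : GalL L × GalL L → ZMod p) (v : (arithDatumQ p S hχ).ι) (g : GQ),
    IsLocTriv₂ (arithDatumQ p S hχ) L.fixingSubgroup hU c v g ↔
      IsLocTrivAt L (g • primeLocalPlace v.1) c

/-- **(C') all places are conjugate**: every place of `ℚ̄` over `q` is `g • A_q`. -/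
def PlaceSurjStatement : Prop :=
  ∀ (q : Nat.Primes) (A : ValuationSubring Qbar), A.LiesOverPrime (q : ℕ) →
    ∃ g : GQ, A = g • primeLocalPlace q

/-- **(G) place count**: a system `R` of representatives of the double cosets
`G_L \ G_ℚ / loc(Γ_q)` has as many elements as there are primes of `L` over `q`. -/
def PlaceCountStatement : Prop :=
  ∀ (L : IntermediateField ℚ Qbar) [NumberField L] (q : Nat.Primes) (R : Finset GQ),
    (∀ x : GQ, ∃! g : GQ, g ∈ R ∧
      ∃ (u : L.fixingSubgroup) (γ : primeLocalGaloisGroup q),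
        x = (u : GQ) * g * primeLocalToGlobal q γ) →
    R.card = Nat.card {w : HeightOneSpectrum (𝓞 L) // (((q : ℕ) : ℕ) : 𝓞 L) ∈ w.asIdeal}

/-- `IsPlaceReps` for `arithDatumQ` unfolds to the hypothesis of `PlaceCountStatement`. -/
theorem isPlaceReps_iff (p : ℕ) [Fact p.Prime] (S : Finset Nat.Primes)
    (hχ : ∃ N ∈ (globalLevelSys S).sets, ∀ s ∈ N, cycloChar p s = 1)
    (U : Subgroup GQ) (v : (arithDatumQ p S hχ).ι) (R : Finset GQ) :
    IsPlaceReps (arithDatumQ p S hχ) U v R ↔
      ∀ x : GQ, ∃! g : GQ, g ∈ R ∧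
        ∃ (u : U) (γ : primeLocalGaloisGroup v.1), x = (u : GQ) * g * primeLocalToGlobal v.1 γ :=
  Iff.rfl

end Fermat.Agent.H54.Cft
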