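import Fermat.Agent.H54.Cft.KummerFinal2
import Fermat.Agent.H38.Cft.SelmerCountMain

/-!
# P-CFT / KUMMER DICTIONARY: unconditional results, part 3 (helper54)

* `levelCharCount : LevelCharCountStatement` (KD-10, unconditional): for a number field
  `K ≤ ℚ̄` containing `μ_p` and a finite set `T` of primes of `K` containing the primes over `p`,
  the number of level characters of `G_K` unramified outside `T` is
  `p ^ (#infinite places + #T) * #Cl_T(K)[p]`.

Inputs: `kummerBijection` (KD-8, helper54 with leaves of helper99, helper73, helper16, helper93)
and `Fermat.Agent.H38.Cft.selmerCount` (KD-9, helper38).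
-/

set_option autoImplicit false

namespace Fermat.Agent.H54.Cft

/-- **KD-10** (unconditional). -/
theorem levelCharCount : LevelCharCountStatement :=
  levelCharCount_of_selmerCount Fermat.Agent.H38.Cft.selmerCount

end Fermat.Agent.H54.Cft
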