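import Fermat.Agent.H96.Cft.KummerDivisible

/-!
# P-CFT / [CAP] (helper54): capitulation in valuation currency

`capVal`: let `p ∈ S`, `α ^ (p ^ a) = β` with `β ∈ ℚ_S`, and assume that at every place `A` of
`ℚ̄` outside `S` the value of `β` is a `p ^ a`-th power of the value of an element of `ℚ_S`.
Then `α ∈ ℚ_S`, and the value of `α` at `A` is the value of that element.

(Kummer extensions by elements whose divisor outside `S` is divisible by `p` are unramified
outside `S ∋ p`; generalises `Fermat.Agent.H96.Cft.kummerDivisible`.)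
-/

set_option autoImplicit false

noncomputable section

namespace Fermat.Agent.H54.Cft

open Fermat.Agent.H76.Cft Fermat.Agent.H96.Cft

/-- One Kummer step: a `p`-th root of an element of `ℚ_S` whose value at every place outside `S`
is a `p`-th power of a value of `ℚ_S` lies in `ℚ_S`. -/
theorem cap_step (p : ℕ) [Fact p.Prime] (S : Finset Nat.Primes) (hpS : ExtCitation.pPrime p ∈ S)
    (x y : (AlgebraicClosure ℚ)ˣ) (hxy : y ^ p = x) (hx : (x : AlgebraicClosure ℚ) ∈ QS S)
    (hval : ∀ A : ValuationSubring (AlgebraicClosure ℚ), IsPlaceOutside S A →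
      ∃ γ : (AlgebraicClosure ℚ)ˣ, (γ : AlgebraicClosure ℚ) ∈ QS S ∧
        A.valuation (x : AlgebraicClosure ℚ) = A.valuation (γ : AlgebraicClosure ℚ) ^ p) :
    (y : AlgebraicClosure ℚ) ∈ QS S := by
  have hp : p.Prime := Fact.out
  have hF : (IntermediateField.adjoin ℚ {(y : AlgebraicClosure ℚ)}).IsUnramifiedOutside S := by
    refine ⟨IntermediateField.adjoin.finiteDimensional
        ((AlgebraicClosure.isAlgebraic ℚ).isAlgebraic (y : AlgebraicClosure ℚ)).isIntegral,
      fun q hq A hA σ hσ => ?_⟩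
    apply mem_fixingSubgroup_adjoin_simple
    obtain ⟨γ, hγQ, hγ⟩ := hval A ⟨q, hq, hA⟩
    have hx_fix : σ (x : AlgebraicClosure ℚ) = x := apply_eq_of_mem_QS hq hA hσ hx
    have hγ_fix : σ (γ : AlgebraicClosure ℚ) = γ := apply_eq_of_mem_QS hq hA hσ hγQ
    have hy0 : (y : AlgebraicClosure ℚ) ≠ 0 := y.ne_zero
    have hγ0 : (γ : AlgebraicClosure ℚ) ≠ 0 := γ.ne_zero
    -- `t = y / γ` is a unit at `A`
    set t : AlgebraicClosure ℚ := (y : AlgebraicClosure ℚ) / γ with ht
    have ht0 : t ≠ 0 := div_ne_zero hy0 hγ0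
    have htp : t ^ p = (x : AlgebraicClosure ℚ) / (γ : AlgebraicClosure ℚ) ^ p := by
      rw [ht, div_pow, ← Units.val_pow_eq_pow_val, hxy]
    have hv1 : A.valuation (t ^ p) = 1 := by
      rw [htp, map_div₀, map_pow, hγ]
      exact div_self (pow_ne_zero _ ((Valuation.ne_zero_iff _).mpr hγ0))
    have htA : t ∈ A := by
      apply mem_of_pow_mem A hp.ne_zero
      rw [← A.valuation_le_one_iff, hv1]
    have htinvA : t⁻¹ ∈ A := by
      apply mem_of_pow_mem A hp.ne_zero
      rw [← A.valuation_le_one_iff, inv_pow, map_inv₀, hv1, inv_one]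
    have hσt : σ t = σ (y : AlgebraicClosure ℚ) / γ := by
      rw [ht, map_div₀, hγ_fix]
    have hζp : (σ (y : AlgebraicClosure ℚ) * (y : AlgebraicClosure ℚ)⁻¹) ^ p = 1 := by
      rw [mul_pow, ← map_pow, inv_pow, ← Units.val_pow_eq_pow_val, hxy, hx_fix,
        mul_inv_cancel₀ x.ne_zero]
    have hζ1 : σ (y : AlgebraicClosure ℚ) * (y : AlgebraicClosure ℚ)⁻¹ - 1 ∈ A.nonunits := by
      have e : σ (y : AlgebraicClosure ℚ) * (y : AlgebraicClosure ℚ)⁻¹ - 1 = (σ t - t) * t⁻¹ := by
        rw [hσt, ht]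
        field_simp
      rw [e]
      exact nonunits_mul_mem_right A (apply_sub_mem_nonunits_of_mem_inertia hσ htA) htinvA
    have hpq : Nat.Coprime p (q : ℕ) := by
      rw [Nat.coprime_primes hp q.2]
      rintro rfl
      apply hq
      have : ExtCitation.pPrime (q : ℕ) = q := Subtype.ext rfl
      rw [← this]
      exact hpS
    have hpA : (p : AlgebraicClosure ℚ) ∉ A.nonunits := natCast_not_mem_nonunits A hpq hA
    have h1 := eq_one_of_pow_eq_one_of_sub_mem_nonunits A hpA hζp hζ1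
    have := congrArg (· * (y : AlgebraicClosure ℚ)) h1
    simp only [inv_mul_cancel_right₀ hy0, one_mul] at this
    exact this
  exact (le_iSup (fun F : {F : IntermediateField ℚ (AlgebraicClosure ℚ) //
    F.IsUnramifiedOutside S} => F.1) ⟨_, hF⟩) (IntermediateField.mem_adjoin_simple_self ℚ _)

/-- **[CAP], valuation form.** -/
def CapValStatement : Prop :=
  ∀ (p : ℕ) [Fact p.Prime] (S : Finset Nat.Primes), ExtCitation.pPrime p ∈ S →
    ∀ (a : ℕ) (β α : (AlgebraicClosure ℚ)ˣ), α ^ (p ^ a) = β →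
    (β : AlgebraicClosure ℚ) ∈ QS S →
    (∀ A : ValuationSubring (AlgebraicClosure ℚ), IsPlaceOutside S A →
      ∃ γ : (AlgebraicClosure ℚ)ˣ, (γ : AlgebraicClosure ℚ) ∈ QS S ∧
        A.valuation (β : AlgebraicClosure ℚ) = A.valuation (γ : AlgebraicClosure ℚ) ^ (p ^ a)) →
    (α : AlgebraicClosure ℚ) ∈ QS S ∧
      ∀ (A : ValuationSubring (AlgebraicClosure ℚ)) (γ : (AlgebraicClosure ℚ)ˣ),
        A.valuation (β : AlgebraicClosure ℚ) = A.valuation (γ : AlgebraicClosure ℚ) ^ (p ^ a) →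
        A.valuation (α : AlgebraicClosure ℚ) = A.valuation (γ : AlgebraicClosure ℚ)

theorem val_eq_of_pow_eq (A : ValuationSubring (AlgebraicClosure ℚ)) {n : ℕ} (hn : n ≠ 0)
    {u v : AlgebraicClosure ℚ} (h : A.valuation u ^ n = A.valuation v ^ n) :
    A.valuation u = A.valuation v := by
  rcases lt_trichotomy (A.valuation u) (A.valuation v) with hlt | heq | hgt
  · exact absurd h (ne_of_lt (pow_lt_pow_left₀ hlt zero_le hn))
  · exact heq
  · exact absurd h.symm (ne_of_lt (pow_lt_pow_left₀ hgt zero_le hn))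

/-- **[CAP], valuation form** (unconditional). -/
theorem capVal : CapValStatement := by
  intro p _ S hpS a
  have hp : p.Prime := Fact.out
  induction a with
  | zero =>
    intro β α hαβ hβ hval
    have : α = β := by simpa using hαβ
    subst this
    refine ⟨hβ, fun A γ h => ?_⟩
    simpa using h
  | succ a ih =>
    intro β α hαβ hβ hval
    set α₁ : (AlgebraicClosure ℚ)ˣ := α ^ (p ^ a) with hα₁
    have h1 : α₁ ^ p = β := by
      rw [hα₁, ← pow_mul, ← pow_succ]
      exact hαβ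
    have hα₁Q : (α₁ : AlgebraicClosure ℚ) ∈ QS S := by
      refine cap_step p S hpS β α₁ h1 hβ fun A hA => ?_
      obtain ⟨γ, hγQ, hγ⟩ := hval A hA
      refine ⟨γ ^ (p ^ a), ?_, ?_⟩
      · rw [Units.val_pow_eq_pow_val]
        exact pow_mem hγQ _
      · rw [hγ, Units.val_pow_eq_pow_val, map_pow, ← pow_mul, ← pow_succ]
    have hv1 : ∀ (A : ValuationSubring (AlgebraicClosure ℚ)) (γ : (AlgebraicClosure ℚ)ˣ),
        A.valuation (β : AlgebraicClosure ℚ)
          = A.valuation (γ : AlgebraicClosure ℚ) ^ (p ^ (a + 1)) →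
        A.valuation (α₁ : AlgebraicClosure ℚ) = A.valuation (γ : AlgebraicClosure ℚ) ^ (p ^ a) := by
      intro A γ h
      have h2 : A.valuation (α₁ : AlgebraicClosure ℚ) ^ p
          = A.valuation ((γ : AlgebraicClosure ℚ) ^ (p ^ a)) ^ p := by
        rw [← map_pow, ← Units.val_pow_eq_pow_val, h1, h, map_pow, ← pow_mul, ← pow_succ]
      have := val_eq_of_pow_eq A hp.ne_zero h2
      rwa [map_pow] at this
    obtain ⟨hαQ, hαv⟩ := ih α₁ α rfl hα₁Q (fun A hA => by
      obtain ⟨γ, hγQ, hγ⟩ := hval A hA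
      exact ⟨γ, hγQ, hv1 A γ hγ⟩)
    exact ⟨hαQ, fun A γ h => hαv A γ (hv1 A γ h)⟩

end Fermat.Agent.H54.Cft
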