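import Fermat.Agent.H54.Cft.KummerFinal3
import Fermat.Agent.H54.Cft.N6Interfaces
import Fermat.Agent.H21.Cft.BridgeLevels
import Fermat.Agent.H78.CFT.LocalTarget
import Fermat.Agent.H13.Cft.Tools

/-!
# P-CFT / [GC-1] (helper54): the global `H¹` count in level-system language

For a number field `L ≤ ℚ̄` unramified outside `S ∋ p` with `μ_p ⊆ L` (`p` odd):

* `lvlGL S L hL` : the level system of `G_S(L)` on `G_L = ↥L.fixingSubgroup`
  (`= (globalLevelSys S).restrict L.fixingSubgroup _`);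
* `isSLvl₁_iff_isLvl₁`, `isSLvl₂_iff_isLvl₂` : the `S`-level predicates of the [N6]/[GO2] blocks
  are the level predicates of `lvlGL` (helper78's `IsLvl₁`, `IsLvl₂`);
* `two_mul_card_infinitePlace` : `2 * #{infinite places of L} = [L : ℚ]`;
* `h1Card` : `#Hom_lvl(G_S(L), ℤ/p) = p ^ (#{infinite places} + #T) * #Cl_T(L)[p]`
  (`T` = primes of `L` over `S`);
* `h1Card_sq` : `(#Hom_lvl(G_S(L), ℤ/p))² = p ^ ([L : ℚ] + 2 #T) * (#Cl_T(L)[p])²`.
-/

set_option autoImplicit false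

open IsDedekindDomain NumberField

namespace Fermat.Agent.H54.Cft

open Fermat.Agent.H13.Cft Fermat.Agent.H78.CFT

/-- A number field containing a primitive `p`-th root of unity, `p` odd, is totally complex:
`2 * #{infinite places} = [L : ℚ]`. -/
theorem two_mul_card_infinitePlace (p : ℕ) [Fact p.Prime] (hp : p ≠ 2) (L : Type) [Field L]
    [NumberField L] (ζ : L) (hζ : IsPrimitiveRoot ζ p) :
    2 * Fintype.card (InfinitePlace L) = Module.finrank ℚ L := by
  have h2 : 2 < p := lt_of_le_of_ne (Fact.out : p.Prime).two_le (Ne.symm hp)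
  have h0 : InfinitePlace.nrRealPlaces L = 0 := NumberField.InfinitePlace.IsPrimitiveRoot.nrRealPlaces_eq_zero_of_two_lt h2 hζ
  have h1 := InfinitePlace.card_add_two_mul_card_eq_rank L
  have h3 := InfinitePlace.card_eq_nrRealPlaces_add_nrComplexPlaces (K := L)
  rw [h0, zero_add] at h1 h3
  rw [h3, h1]

/-- `G_L` contains an `S`-level when `L` is unramified outside `S`. -/
theorem exists_level_le_GL (S : Finset Nat.Primes) (L : IntermediateField ℚ Qbar)
    (hL : L.IsUnramifiedOutside S) : ∃ N ∈ (globalLevelSys S).sets, N ≤ L.fixingSubgroup :=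
  Fermat.Agent.H21.Cft.exists_level_le_fixingSubgroup S hL

/-- The level system of `G_S(L)` on `G_L`. -/
noncomputable def lvlGL (S : Finset Nat.Primes) (L : IntermediateField ℚ Qbar)
    (hL : L.IsUnramifiedOutside S) : LevelSys (GalL L) :=
  (globalLevelSys S).restrict L.fixingSubgroup (exists_level_le_GL S L hL)

/-- Levels of `lvlGL` come from fields unramified outside `S`. -/
theorem exists_field_of_mem_lvlGL {S : Finset Nat.Primes} {L : IntermediateField ℚ Qbar}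
    (hL : L.IsUnramifiedOutside S) {N' : Subgroup (GalL L)} (hN' : N' ∈ (lvlGL S L hL).sets) :
    ∃ F : IntermediateField ℚ Qbar, F.IsUnramifiedOutside S ∧
      ∀ n : GalL L, n ∈ N' ↔ (n : GQ) ∈ F.fixingSubgroup := by
  obtain ⟨N, hN, hNU, rfl⟩ := hN'
  obtain ⟨F, hF, hFN⟩ := Fermat.Agent.H21.Cft.exists_unramified_field_of_level S hN
  refine ⟨F, hF, fun n => ?_⟩
  rw [hFN]
  exact Subgroup.mem_subgroupOf

/-- Fields unramified outside `S` give levels of `lvlGL`. -/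
theorem exists_mem_lvlGL_of_field {S : Finset Nat.Primes} {L : IntermediateField ℚ Qbar}
    (hL : L.IsUnramifiedOutside S) {F : IntermediateField ℚ Qbar}
    (hF : F.IsUnramifiedOutside S) :
    ∃ N' ∈ (lvlGL S L hL).sets, ∀ n : GalL L, n ∈ N' → (n : GQ) ∈ F.fixingSubgroup := by
  have hFL : (F ⊔ L).IsUnramifiedOutside S := hF.sup hL
  have hN := Fermat.Agent.H21.Cft.normalCore_mem_globalLevelSys S hFL
  have hle : (F ⊔ L).fixingSubgroup.normalCore ≤ (F ⊔ L).fixingSubgroup :=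
    Subgroup.normalCore_le _
  have hleL : (F ⊔ L).fixingSubgroup ≤ L.fixingSubgroup :=
    IntermediateField.fixingSubgroup_antitone le_sup_right
  have hleF : (F ⊔ L).fixingSubgroup ≤ F.fixingSubgroup :=
    IntermediateField.fixingSubgroup_antitone le_sup_left
  refine ⟨_, ⟨_, hN, hle.trans hleL, rfl⟩, fun n hn => ?_⟩
  exact hleF (hle (Subgroup.mem_subgroupOf.1 hn))

theorem isSLvl₁_iff_isLvl₁ {S : Finset Nat.Primes} {L : IntermediateField ℚ Qbar}
    (hL : L.IsUnramifiedOutside S) {X : Type} [AddCommGroup X] (x : GalL L → X) :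
    IsSLvl₁ S L x ↔ IsLvl₁ (lvlGL S L hL) x := by
  constructor
  · rintro ⟨F, hF, h⟩
    obtain ⟨N', hN', hle⟩ := exists_mem_lvlGL_of_field hL hF
    exact ⟨N', hN', fun g n hn => h g n (hle n hn)⟩
  · rintro ⟨N', hN', h⟩
    obtain ⟨F, hF, hiff⟩ := exists_field_of_mem_lvlGL hL hN'
    exact ⟨F, hF, fun g n hn => h g n ((hiff n).2 hn)⟩

theorem isSLvl₂_iff_isLvl₂ {S : Finset Nat.Primes} {L : IntermediateField ℚ Qbar}
    (hL : L.IsUnramifiedOutside S) {X : Type} [AddCommGroup X] (c : GalL L × GalL L → X) :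
    IsSLvl₂ S L c ↔ IsLvl₂ (lvlGL S L hL) c := by
  constructor
  · rintro ⟨F, hF, h⟩
    obtain ⟨N', hN', hle⟩ := exists_mem_lvlGL_of_field hL hF
    exact ⟨N', hN', fun g k n hn m hm => h g k n m (hle n hn) (hle m hm)⟩
  · rintro ⟨N', hN', h⟩
    obtain ⟨F, hF, hiff⟩ := exists_field_of_mem_lvlGL hL hN'
    exact ⟨F, hF, fun g k n m hn hm => h g k n ((hiff n).2 hn) m ((hiff m).2 hm)⟩

/-- Extension by zero of a function on `G_L` to `G_ℚ`. -/
noncomputable def extZero (L : IntermediateField ℚ Qbar) {p : ℕ} (χ : GalL L → ZMod p) :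
    GQ → ZMod p :=
  fun τ => by
    classical
    exact if h : τ ∈ L.fixingSubgroup then χ ⟨τ, h⟩ else 0

lemma extZero_apply (L : IntermediateField ℚ Qbar) {p : ℕ} (χ : GalL L → ZMod p)
    (τ : GalL L) : extZero L χ (τ : GQ) = χ τ := by
  unfold extZero
  rw [dif_pos τ.2]

lemma isLevelCharS_extZero {S : Finset Nat.Primes} {L : IntermediateField ℚ Qbar}
    (hL : L.IsUnramifiedOutside S) {p : ℕ} (χ : GalL L → ZMod p)
    (hχ : IsLvlHom (lvlGL S L hL) χ) : IsLevelCharS S L (extZero L χ) := by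
  obtain ⟨hadd, hlvl⟩ := hχ
  obtain ⟨F, hF, h⟩ := (isSLvl₁_iff_isLvl₁ hL χ).2 hlvl
  refine ⟨fun σ hσ τ hτ => ?_, F, hF, fun s hsF hsL => ?_⟩
  · have := hadd ⟨σ, hσ⟩ ⟨τ, hτ⟩
    rw [← extZero_apply L χ ⟨σ, hσ⟩, ← extZero_apply L χ ⟨τ, hτ⟩,
      ← extZero_apply L χ (⟨σ, hσ⟩ * ⟨τ, hτ⟩)] at this
    exact this
  · have h1 : χ 1 = 0 := by
      have := hadd 1 1
      rw [mul_one] at this
      exact left_eq_add.mp this
    have h2 := h 1 ⟨s, hsL⟩ hsF
    rw [one_mul, h1] at h2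
    rw [← h2]
    exact extZero_apply L χ ⟨s, hsL⟩

lemma isLvlHom_restrict {S : Finset Nat.Primes} {L : IntermediateField ℚ Qbar}
    (hL : L.IsUnramifiedOutside S) {p : ℕ} (b : GQ → ZMod p) (hb : IsLevelCharS S L b) :
    IsLvlHom (lvlGL S L hL) (fun τ : GalL L => b (τ : GQ)) := by
  obtain ⟨hadd, F, hF, h⟩ := hb
  refine ⟨fun g k => hadd g g.2 k k.2, (isSLvl₁_iff_isLvl₁ hL _).1 ⟨F, hF, fun g n hn => ?_⟩⟩
  have h1 := hadd g g.2 n n.2
  have h2 := h n hn n.2
  show b ((g * n : GalL L) : GQ) = b g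
  rw [Subgroup.coe_mul, h1, h2, add_zero]

/-- **[GC-1]** `#Hom_lvl(G_S(L), ℤ/p) = p ^ (#{infinite places} + #T) * #Cl_T(L)[p]`. -/
theorem h1Card (p : ℕ) [Fact p.Prime] (S : Finset Nat.Primes) (hpS : ExtCitation.pPrime p ∈ S)
    (L : IntermediateField ℚ Qbar) [NumberField L] (hL : L.IsUnramifiedOutside S)
    (hμ : ∀ ω : Qbar, ω ^ p = 1 → ω ∈ L) (hT : (primesOverS S L).Finite) :
    Nat.card {χ : GalL L → ZMod p // IsLvlHom (lvlGL S L hL) χ} =
      p ^ (Fintype.card (InfinitePlace L) + (primesOverSFinset S L hT).card) *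
        clTorsionCard L (primesOverSFinset S L hT) p := by
  obtain ⟨bs, h1, h2, h3, h4⟩ := levelCharCount p S hpS L hL hμ hT
  rw [← h4, ← Nat.card_eq_finsetCard bs]
  refine Nat.card_congr (Equiv.ofBijective
    (fun χ => ⟨(h2 _ (isLevelCharS_extZero hL χ.1 χ.2)).choose,
      (h2 _ (isLevelCharS_extZero hL χ.1 χ.2)).choose_spec.1⟩) ⟨?_, ?_⟩)
  · intro χ χ' h
    have e := (h2 _ (isLevelCharS_extZero hL χ.1 χ.2)).choose_spec.2
    have e' := (h2 _ (isLevelCharS_extZero hL χ'.1 χ'.2)).choose_spec.2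
    have hh : (h2 _ (isLevelCharS_extZero hL χ.1 χ.2)).choose =
        (h2 _ (isLevelCharS_extZero hL χ'.1 χ'.2)).choose := congrArg Subtype.val h
    apply Subtype.ext
    funext τ
    have a1 := e τ τ.2
    have a2 := e' τ τ.2
    rw [extZero_apply] at a1 a2
    rw [a1, a2, hh]
  · rintro ⟨b, hb⟩
    refine ⟨⟨fun τ => b (τ : GQ), isLvlHom_restrict hL b (h1 b hb)⟩, ?_⟩
    apply Subtype.ext
    have hs := (h2 _ (isLevelCharS_extZero hL (fun τ : GalL L => b (τ : GQ))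
      (isLvlHom_restrict hL b (h1 b hb)))).choose_spec
    refine (h3 b hb _ hs.1 fun τ hτ => ?_).symm
    rw [← hs.2 τ hτ]
    exact (extZero_apply L (fun τ : GalL L => b (τ : GQ)) ⟨τ, hτ⟩).symm

/-- **[GC-1], squared form** (`p` odd):
`(#Hom_lvl(G_S(L), ℤ/p))² = p ^ ([L : ℚ] + 2 #T) * (#Cl_T(L)[p])²`. -/
theorem h1Card_sq (p : ℕ) [Fact p.Prime] (hp : p ≠ 2) (S : Finset Nat.Primes)
    (hpS : ExtCitation.pPrime p ∈ S)
    (L : IntermediateField ℚ Qbar) [NumberField L] (hL : L.IsUnramifiedOutside S)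
    (hμ : ∀ ω : Qbar, ω ^ p = 1 → ω ∈ L) (hT : (primesOverS S L).Finite) :
    (Nat.card {χ : GalL L → ZMod p // IsLvlHom (lvlGL S L hL) χ}) ^ 2 =
      p ^ (Module.finrank ℚ L + 2 * (primesOverSFinset S L hT).card) *
        (clTorsionCard L (primesOverSFinset S L hT) p) ^ 2 := by
  have hp' : p.Prime := Fact.out
  have : NeZero p := ⟨hp'.ne_zero⟩
  have : NeZero ((p : ℕ) : Qbar) := ⟨by exact_mod_cast hp'.ne_zero⟩
  obtain ⟨ζ, hζ⟩ : ∃ ζ : Qbar, IsPrimitiveRoot ζ p :=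
    HasEnoughRootsOfUnity.exists_primitiveRoot Qbar p
  have hζL : ζ ∈ L := hμ ζ hζ.pow_eq_one
  have hζ' : IsPrimitiveRoot (⟨ζ, hζL⟩ : L) p :=
    (IsPrimitiveRoot.coe_submonoidClass_iff (N := L) (ζ := ⟨ζ, hζL⟩)).mp hζ
  have h2 := two_mul_card_infinitePlace p hp L ⟨ζ, hζL⟩ hζ'
  rw [h1Card p S hpS L hL hμ hT, mul_pow, ← pow_mul, ← h2]
  congr 2
  ring

end Fermat.Agent.H54.Cft
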