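import Fermat.Agent.H54.Cft.GCFieldInterfaces
import Fermat.Agent.H81.Local.B5

/-!
# P-CFT / [GC-FIELD] (helper54): pieces (B), (D) and the place sum of the dictionary
FIELD language -> U-language (row 965)

* `exists_field_of_chiOpen` (B): a `χ`-open subgroup `U ≤ G_ℚ` (for the `S`-levels) is
  `L.fixingSubgroup` for a number field `L` unramified outside `S` containing `μ_p`;
* `shaU_of_field` (D): from `Sha2BoundElemStatement` and the place dictionary, the clause (ii)
  of helper13's `GlobalCountUStatement` for `U = L.fixingSubgroup`, with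
  `Rsha.card ≤ #Cl_T(L)[p]`;
* `sum_card_placeReps`: `∑_{q ∈ S} #R_q = #T` from `PlaceCountStatement`.
-/

set_option autoImplicit false

open IsDedekindDomain NumberField ExtCitation
open scoped Pointwise

namespace Fermat.Agent.H54.Cft

open Fermat.Agent.H13.Cft Fermat.Agent.H78.CFT

/-- A field unramified outside `S` is a number field. -/
theorem numberField_of_unram {S : Finset Nat.Primes} {L : IntermediateField ℚ Qbar}
    (hL : L.IsUnramifiedOutside S) : NumberField L :=
  have : FiniteDimensional ℚ L := hL.1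
  { to_charZero := inferInstance, to_finiteDimensional := inferInstance }

/-- **(B)** A `χ`-open subgroup of `G_ℚ` is the fixing subgroup of a number field unramified
outside `S` and containing the `p`-th roots of unity. -/
theorem exists_field_of_chiOpen (p : ℕ) [Fact p.Prime] (S : Finset Nat.Primes)
    (U : Subgroup GQ) (hU : IsChiOpen (globalLevelSys S) (cycloChar p) U) :
    ∃ L : IntermediateField ℚ Qbar, L.IsUnramifiedOutside S ∧
      (∀ ω : Qbar, ω ^ p = 1 → ω ∈ L) ∧ L.fixingSubgroup = U := by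
  have := Fermat.Agent.H21.Cft.isGalois_qbar_adm
  obtain ⟨⟨N, hN, hNU⟩, hχ⟩ := hU
  obtain ⟨F, hF, hFN⟩ := Fermat.Agent.H21.Cft.exists_unramified_field_of_level S hN
  have hopen : IsOpen (U : Set GQ) := by
    have : FiniteDimensional ℚ F := hF.1
    refine Subgroup.isOpen_mono (H₁ := F.fixingSubgroup) ?_
      (IntermediateField.fixingSubgroup_isOpen F)
    rw [hFN]
    exact hNU
  have hclosed : IsClosed (U : Set GQ) := Subgroup.isClosed_of_isOpen U hopen
  have hfix : (IntermediateField.fixedField U).fixingSubgroup = U :=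
    InfiniteGalois.fixingSubgroup_fixedField ⟨U, hclosed⟩
  have hle : IntermediateField.fixedField U ≤ F := by
    have h1 : F.fixingSubgroup ≤ U := by rw [hFN]; exact hNU
    have := IntermediateField.fixedField_antitone h1
    rwa [InfiniteGalois.fixedField_fixingSubgroup] at this
  refine ⟨IntermediateField.fixedField U, hF.of_le hle, fun ω hω => ?_, hfix⟩
  rw [IntermediateField.mem_fixedField_iff]
  intro σ hσ
  exact Fermat.Agent.H81.Local.apply_eq_of_cycloChar_eq_one p (hχ σ hσ) hω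

theorem isCocycle₂_of_isTrivCocycle₂ {G A : Type} [Group G] [AddCommGroup A]
    {c : G × G → A} (hc : IsTrivCocycle₂ c) : IsCocycle₂ c := by
  intro g h k
  have := hc g h k
  have e : c (h, k) - c (g * h, k) + c (g, h * k) - c (g, h)
      = (c (h, k) + c (g, h * k)) - (c (g * h, k) + c (g, h)) := by abel
  rw [e, this, sub_self]

/-- **(D)** Clause (ii) of `GlobalCountUStatement` for `U = L.fixingSubgroup`, from the
elementary bound of `Ш²` and the place dictionary. -/
theorem shaU_of_field (hsha : Sha2BoundElemStatement) (hdict : PlaceDictStatement)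
    (hsurj : PlaceSurjStatement) (p : ℕ) [Fact p.Prime] (hp : p ≠ 2) (S : Finset Nat.Primes)
    (hpS : pPrime p ∈ S)
    (hχ : ∃ N ∈ (globalLevelSys S).sets, ∀ s ∈ N, cycloChar p s = 1)
    (L : IntermediateField ℚ Qbar) [NumberField L] (hL : L.IsUnramifiedOutside S)
    (hμ : ∀ ω : Qbar, ω ^ p = 1 → ω ∈ L) (hT : (primesOverS S L).Finite) :
    ∃ Rsha : Finset (GalL L × GalL L → ZMod p),
      Rsha.card ≤ clTorsionCard L (primesOverSFinset S L hT) p ∧
      ∀ c : GalL L × GalL L → ZMod p, IsLvl₂ (lvlGL S L hL) c → IsTrivCocycle₂ c →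
        (∀ (v : (arithDatumQ p S hχ).ι) (g : GQ),
          IsLocTriv₂ (arithDatumQ p S hχ) L.fixingSubgroup (exists_level_le_GL S L hL) c v g) →
        ∃ r ∈ Rsha, IsLvlCoboundary₂ (lvlGL S L hL) (fun x => c x - r x) := by
  obtain ⟨R', hcard, hR'⟩ := hsha p hp S hpS L hL hμ hT
  refine ⟨R', hcard, fun c hlvl hcoc hloc => ?_⟩
  have h1 : IsSLvl₂ S L c := (isSLvl₂_iff_isLvl₂ hL c).2 hlvl
  have h2 : ∀ (q : Nat.Primes), q ∈ S → ∀ A : ValuationSubring Qbar,
      A.LiesOverPrime (q : ℕ) → IsLocTrivAt L A c := by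
    intro q hq A hA
    obtain ⟨g, rfl⟩ := hsurj q A hA
    exact (hdict p S hχ L (exists_level_le_GL S L hL) c ⟨q, hq⟩ g).1 (hloc ⟨q, hq⟩ g)
  obtain ⟨r, hr, y, hy, hyc⟩ := hR' c (isCocycle₂_of_isTrivCocycle₂ hcoc) h1 h2
  refine ⟨r, hr, y, (isSLvl₁_iff_isLvl₁ hL y).1 hy, fun g h => ?_⟩
  show y h - y (g * h) + y g = c (g, h) - r (g, h)
  rw [hyc g h]
  abel

/-- Two distinct rational primes do not lie in the same prime of `𝓞 L`. -/
theorem prime_unique_of_mem {L : Type} [Field L] [NumberField L]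
    (w : HeightOneSpectrum (𝓞 L)) {q q' : Nat.Primes}
    (hq : (((q : ℕ) : ℕ) : 𝓞 L) ∈ w.asIdeal) (hq' : (((q' : ℕ) : ℕ) : 𝓞 L) ∈ w.asIdeal) :
    q = q' := by
  by_contra hne
  have hcop : Nat.Coprime (q : ℕ) (q' : ℕ) :=
    (Nat.coprime_primes q.2 q'.2).2 fun h => hne (Subtype.ext h)
  have h1 : ((1 : ℤ) : 𝓞 L) ∈ w.asIdeal := by
    have hb := Int.gcd_eq_gcd_ab (q : ℕ) (q' : ℕ)
    have hg : Int.gcd ((q : ℕ) : ℤ) ((q' : ℕ) : ℤ) = 1 := by
      rw [Int.gcd_natCast_natCast]; exact hcop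
    rw [hg] at hb
    have hb' : ((1 : ℤ) : 𝓞 L) = (((q : ℕ) : ℕ) : 𝓞 L) * ((Int.gcdA (q : ℕ) (q' : ℕ) : ℤ) : 𝓞 L)
        + (((q' : ℕ) : ℕ) : 𝓞 L) * ((Int.gcdB (q : ℕ) (q' : ℕ) : ℤ) : 𝓞 L) := by
      have := congrArg (fun z : ℤ => (z : 𝓞 L)) hb
      simpa using this
    rw [hb']
    exact w.asIdeal.add_mem (w.asIdeal.mul_mem_right _ hq) (w.asIdeal.mul_mem_right _ hq')
  rw [Int.cast_one] at h1
  exact w.isPrime.ne_top ((Ideal.eq_top_iff_one _).2 h1)

/-- `∑_{q ∈ S} #R_q = #T`: the places of `L` over `S`, counted by double cosets. -/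
theorem sum_card_placeReps (hG : PlaceCountStatement) (S : Finset Nat.Primes)
    (L : IntermediateField ℚ Qbar) [NumberField L] (hT : (primesOverS S L).Finite)
    (R : ↥S → Finset GQ)
    (hR : ∀ v : ↥S, ∀ x : GQ, ∃! g : GQ, g ∈ R v ∧
      ∃ (u : L.fixingSubgroup) (γ : primeLocalGaloisGroup v.1),
        x = (u : GQ) * g * primeLocalToGlobal v.1 γ) :
    ∑ v : ↥S, (R v).card = (primesOverSFinset S L hT).card := by
  classical
  have hcard : ∀ v : ↥S, (R v).card =
      ((primesOverSFinset S L hT).filter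
        (fun w => ((((v : Nat.Primes) : ℕ) : ℕ) : 𝓞 L) ∈ w.asIdeal)).card := by
    intro v
    rw [hG L v.1 (R v) (hR v), ← Nat.card_eq_finsetCard]
    refine Nat.card_congr (Equiv.subtypeEquivRight fun w => ?_).symm
    rw [Finset.mem_filter]
    constructor
    · exact fun h => h.2
    · intro h
      refine ⟨?_, h⟩
      unfold primesOverSFinset
      rw [Set.Finite.mem_toFinset]
      exact ⟨v.1, v.2, h⟩
  rw [Finset.sum_congr rfl fun v _ => hcard v, ← Finset.card_biUnion]
  · congr 1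
    ext w
    rw [Finset.mem_biUnion]
    constructor
    · rintro ⟨v, -, hv⟩
      exact (Finset.mem_filter.1 hv).1
    · intro hw
      have hw' := hw
      unfold primesOverSFinset at hw'
      rw [Set.Finite.mem_toFinset] at hw'
      obtain ⟨q, hq, hqw⟩ := hw'
      exact ⟨⟨q, hq⟩, Finset.mem_univ _, Finset.mem_filter.2 ⟨hw, hqw⟩⟩
  · intro v _ v' _ hne
    rw [Function.onFun, Finset.disjoint_left]
    intro w hw hw'
    exact hne (Subtype.ext (prime_unique_of_mem w (Finset.mem_filter.1 hw).2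
      (Finset.mem_filter.1 hw').2))

end Fermat.Agent.H54.Cft
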