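import Fermat.Agent.H54.Cft.Sha2Final
import Fermat.Agent.H79.GC.Uncond

/-!
# P-CFT / [GC] (helper54 + helper79): the elementary global count, UNCONDITIONAL

`globalCountU : Fermat.Agent.H13.Cft.GlobalCountUStatement` - the number-theoretic input `[GC-U]`
of helper13's frame (`ULang.lean`): for `U ≤ G_ℚ` open in `G_{ℚ,S}` with trivial cyclotomic
character, `H¹(U, ℤ/p)` is finite, `Ш²(U, ℤ/p)` is finite and
`∏ #H¹(D_{q,g}) · (#Ш²)² ≤ (#H¹(U))²`.

= helper79's `globalCountU_of_field` (dictionary FIELD -> U-language; helper61 place count,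
helper78 local product formula, helper76 `shaUOfField`, helper44, helper19, helper64) applied to
`sha2BoundElem` (`Sha2Final`).
-/

set_option autoImplicit false

namespace Fermat.Agent.H54.Cft

/-- **[GC-U]** (unconditional). -/
theorem globalCountU : Fermat.Agent.H13.Cft.GlobalCountUStatement :=
  Fermat.Agent.H79.GC.globalCountU_of_field sha2BoundElem

end Fermat.Agent.H54.Cft
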