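import Fermat.Agent.H54.Cft.GCFieldInterfaces
import Fermat.Agent.H89.Hasse.DecField

/-!
# P-CFT / [GC-FIELD] (helper54): (C') every place of `ℚ̄` over `q` is `g • A_q`

`placeSurj : PlaceSurjStatement`, from helper89's `dec_exists_conj` (which rests on helper53's
transitivity statement).
-/

set_option autoImplicit false

open ExtCitation
open scoped Pointwise

namespace Fermat.Agent.H54.Cft

/-- **(C')** every place of `ℚ̄` over `q` is conjugate to the standard one. -/
theorem placeSurj : PlaceSurjStatement := by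
  intro q A hA
  have : Fact (q : ℕ).Prime := ⟨q.2⟩
  obtain ⟨ρ, hρ⟩ := Fermat.Agent.H89.Hasse.dec_exists_conj (q : ℕ) A hA
  refine ⟨ρ⁻¹, ?_⟩
  ext x
  rw [ValuationSubring.mem_smul_pointwise_iff_exists]
  constructor
  · intro hx
    refine ⟨ρ x, (hρ x).1 hx, ?_⟩
    show ρ⁻¹ (ρ x) = x
    exact ρ.symm_apply_apply x
  · rintro ⟨y, hy, rfl⟩
    rw [hρ]
    have : ρ (ρ⁻¹ • y) = y := ρ.apply_symm_apply y
    rw [this]
    exact hy

end Fermat.Agent.H54.Cft
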