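import Fermat.Agent.H54.Cft.GO2Interfaces
import Fermat.Agent.H54.Cft.CapVal
import Fermat.Agent.H48.Cft.KummerStep

/-!
# P-CFT / [GO2'] (sub-lead helper54): assembly

* `capPlus_of_div : DivCoboundaryStatement → CapPlusStatement`  (uses `capVal`);
* `go2Elem_of : UnramLocTrivStatement → HasseMuStatement → Inf2SStatement → CapPlusStatement →
    GO2ElemStatement`.
-/

set_option autoImplicit false
set_option linter.unusedSectionVars false
set_option linter.unusedVariables false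

noncomputable section

namespace Fermat.Agent.H54.Cft

open Fermat.Agent.H76.Cft (QS ES IsPlaceOutside)
open Fermat.Agent.H48.N6K Fermat.Agent.H96.Cft

variable {S : Finset Nat.Primes} {L : IntermediateField ℚ Qbar}

/-- an element of `ℚ_Sˣ` with trivial value at all places outside `S` is in `E_S` -/
theorem mem_ES_of_val_eq_one {u : Qbarˣ} (hQ : (u : Qbar) ∈ QS S)
    (h : ∀ A : ValuationSubring Qbar, IsPlaceOutside S A → A.valuation (u : Qbar) = 1) :
    u ∈ ES S := by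
  refine ⟨hQ, fun A hA => ⟨?_, ?_⟩⟩
  · rw [← A.valuation_le_one_iff, h A hA]
  · rw [← A.valuation_le_one_iff, Units.val_inv_eq_inv_val, map_inv₀, h A hA, inv_one]

theorem val_eq_one_of_mem_ES {u : Qbarˣ} (hu : u ∈ ES S) (A : ValuationSubring Qbar)
    (hA : IsPlaceOutside S A) : A.valuation (u : Qbar) = 1 := by
  obtain ⟨h1, h2⟩ := hu.2 A hA
  rw [← A.valuation_le_one_iff] at h1 h2
  rw [Units.val_inv_eq_inv_val, map_inv₀] at h2
  refine le_antisymm h1 ?_
  have hv0 : A.valuation (u : Qbar) ≠ 0 := (Valuation.ne_zero_iff _).mpr u.ne_zero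
  have := mul_le_mul' h2 (le_refl (A.valuation (u : Qbar)))
  rwa [inv_mul_cancel₀ hv0, one_mul] at this

/-- coboundaries of elements of `ℚ_Sˣ` are `S`-level -/
theorem isSLvl₁_cob_QS {u : Qbarˣ} (hu : (u : Qbar) ∈ QS S) :
    IsSLvl₁ S L (fun g : GalL L => u / galU (g : GQ) u) := by
  have hF : (IntermediateField.adjoin ℚ {(u : Qbar)}).IsUnramifiedOutside S := by
    refine ⟨IntermediateField.adjoin.finiteDimensional
        ((AlgebraicClosure.isAlgebraic ℚ).isAlgebraic (u : Qbar)).isIntegral,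
      fun q hq A hA σ hσ => ?_⟩
    apply mem_fixingSubgroup_adjoin_simple
    exact apply_eq_of_mem_QS hq hA hσ hu
  refine ⟨_, hF, fun g n hn => ?_⟩
  have hnu : galU (n : GQ) u = u := by
    apply Units.ext
    rw [coe_galU]
    exact (IntermediateField.mem_fixingSubgroup_iff _ (n : GQ)).mp hn _
      (IntermediateField.mem_adjoin_simple_self ℚ _)
  show u / galU ((g * n : GalL L) : GQ) u = u / galU (g : GQ) u
  rw [Subgroup.coe_mul, galU_mul, hnu]

/-- **[CAP+] from [DIV]** and `capVal`. -/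
theorem capPlus_of_div (hD : DivCoboundaryStatement) : CapPlusStatement := by
  intro p _ S hpS L _ hL b hb hbQ hdb
  have hp : p.Prime := Fact.out
  obtain ⟨n, β, hn, hβQ, hval, hγ⟩ := hD S L hL b hb hbQ hdb
  -- `n = p ^ a * m₀`, `p ∤ m₀`
  obtain ⟨a, m₀, hm₀, hnm⟩ := Nat.exists_eq_pow_mul_and_not_dvd hn.ne' p hp.ne_one
  have hcop : Nat.Coprime m₀ p := ((Nat.Prime.coprime_iff_not_dvd hp).mpr hm₀).symm
  obtain ⟨ms, -, hms⟩ := Nat.exists_mul_mod_eq_one_of_coprime hcop hp.one_lt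
  set m : ℕ := m₀ * ms with hm
  -- the element `β' = β ^ ms` and its `p ^ a`-th root `α`
  obtain ⟨α, hα⟩ : ∃ α : Qbarˣ, α ^ (p ^ a) = β ^ ms := by
    have hpa : 0 < p ^ a := pow_pos hp.pos a
    obtain ⟨z, hz⟩ := IsAlgClosed.exists_pow_nat_eq (((β ^ ms : Qbarˣ) : Qbar)) hpa
    have hz0 : z ≠ 0 := by
      rintro rfl
      rw [zero_pow hpa.ne'] at hz
      exact (β ^ ms).ne_zero hz.symm
    exact ⟨Units.mk0 z hz0, Units.ext (by simpa using hz)⟩
  have hβ'Q : ((β ^ ms : Qbarˣ) : Qbar) ∈ QS S := by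
    rw [Units.val_pow_eq_pow_val]
    exact pow_mem hβQ _
  have hγ' : ∀ A : ValuationSubring Qbar, IsPlaceOutside S A →
      ∃ γ : Qbarˣ, (γ : Qbar) ∈ QS S ∧
        A.valuation ((β ^ ms : Qbarˣ) : Qbar) = A.valuation (γ : Qbar) ^ (p ^ a) := by
    intro A hA
    obtain ⟨γ, hγQ, h⟩ := hγ A hA
    refine ⟨γ ^ m, ?_, ?_⟩
    · rw [Units.val_pow_eq_pow_val]
      exact pow_mem hγQ _
    · rw [Units.val_pow_eq_pow_val, map_pow, h, Units.val_pow_eq_pow_val, map_pow,
        ← pow_mul, ← pow_mul, hnm, hm]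
      congr 1
      ring
  obtain ⟨hαQ, -⟩ := capVal p S hpS a (β ^ ms) α hα hβ'Q hγ'
  refine ⟨m, α, hms, hαQ, fun g => ?_⟩
  · have hgαQ : ((galU (g : GQ) α : Qbarˣ) : Qbar) ∈ QS S := by
      rw [coe_galU]
      exact apply_mem_QS S _ hαQ
    refine mem_ES_of_val_eq_one ?_ fun A hA => ?_
    · rw [Units.val_mul, Units.val_pow_eq_pow_val, Units.val_div_eq_div_val]
      exact mul_mem (pow_mem (hbQ g) _) (div_mem hαQ hgαQ)
    · -- the `p ^ a`-th power of the value is `1`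
      have hpa : p ^ a ≠ 0 := pow_ne_zero _ hp.ne_zero
      have key : A.valuation (((b g ^ m * (α / galU (g : GQ) α) : Qbarˣ)) : Qbar) ^ (p ^ a)
          = A.valuation (1 : Qbar) ^ (p ^ a) := by
        have h1 := hval A hA g
        have hgβ : galU (g : GQ) α ^ (p ^ a) = galU (g : GQ) β ^ ms := by
          rw [← map_pow, hα, map_pow]
        have e1 : ((b g ^ m * (α / galU (g : GQ) α) : Qbarˣ)) ^ (p ^ a)
            = (b g ^ n) ^ ms * (β ^ ms / galU (g : GQ) β ^ ms) := by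
          rw [mul_pow, div_pow, hα, hgβ, ← pow_mul, ← pow_mul, hnm, hm]
          congr 2
          ring
        rw [← map_pow, ← Units.val_pow_eq_pow_val, e1, map_one, one_pow]
        have e2 : (((b g ^ n) ^ ms * (β ^ ms / galU (g : GQ) β ^ ms) : Qbarˣ) : Qbar)
            = (((b g : Qbarˣ) : Qbar) ^ n * ((β : Qbar) / ((galU (g : GQ) β : Qbarˣ) : Qbar)))
                ^ ms := by
          push_cast
          rw [mul_pow, div_pow]
        rw [e2, map_pow, map_mul, map_pow, h1, ← map_mul]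
        have e3 : ((galU (g : GQ) β / β : Qbarˣ) : Qbar)
            * ((β : Qbar) / ((galU (g : GQ) β : Qbarˣ) : Qbar)) = 1 := by
          rw [Units.val_div_eq_div_val]
          have h0 : ((galU (g : GQ) β : Qbarˣ) : Qbar) ≠ 0 := (galU (g : GQ) β).ne_zero
          have h0' : (β : Qbar) ≠ 0 := β.ne_zero
          field_simp
        rw [e3, map_one, one_pow]
      have := val_eq_of_pow_eq A hpa key
      rwa [map_one] at this

/-- roots of unity in `L ≤ ℚ_S` are in `E_S` -/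
theorem zp_mem_ES {p : ℕ} [Fact p.Prime] (hL : L.IsUnramifiedOutside S) {ζ : Qbarˣ}
    (hζ : ζ ^ p = 1) (hζL : (ζ : Qbar) ∈ L) (k : ZMod p) : zp ζ k ∈ ES S := by
  have hp : p.Prime := Fact.out
  have hLQ : L ≤ QS S :=
    le_iSup (fun F : {F : IntermediateField ℚ Qbar // F.IsUnramifiedOutside S} => F.1) ⟨L, hL⟩
  have hζES : ζ ∈ ES S := by
    refine mem_ES_of_val_eq_one (hLQ hζL) fun A hA => ?_
    have h1 : A.valuation (ζ : Qbar) ^ p = A.valuation (1 : Qbar) ^ p := by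
      rw [← map_pow, ← Units.val_pow_eq_pow_val, hζ, Units.val_one, map_one, one_pow]
    have := val_eq_of_pow_eq A hp.ne_zero h1
    rwa [map_one] at this
  exact Subgroup.pow_mem _ hζES _

/-- **[GO2'] assembly.** -/
theorem go2Elem_of (hU : UnramLocTrivStatement) (hH : HasseMuStatement) (hI : Inf2SStatement)
    (hC : CapPlusStatement) : GO2ElemStatement := by
  intro p _ hp2 S hpS L _ hL hμ ζ hζ x hx hxl hloc
  have hp : p.Prime := Fact.out
  have : NeZero p := ⟨hp.ne_zero⟩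
  have hζp : ζ ^ p = 1 := pow_eq_one_of_primitive hζ
  have hζL : (ζ : Qbar) ∈ L := hμ _ hζ.pow_eq_one
  -- `x` is a level cocycle, locally trivial everywhere
  have hxall : IsLvlAll₂ L x := by
    obtain ⟨F, hF, h⟩ := hxl
    exact ⟨F, hF.1, h⟩
  have hlocall : ∀ (q : Nat.Primes) (A : ValuationSubring Qbar), A.LiesOverPrime (q : ℕ) →
      IsLocTrivAt L A x := by
    intro q A hA
    by_cases hq : q ∈ S
    · exact hloc q hq A hA
    · exact hU p S L x hx hxl q hq A hA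
  -- Hasse principle
  obtain ⟨y, hy, hxy⟩ := hH p hp2 L hμ x hx hxall hlocall
  -- `b₀ = ζ ^ y`
  set b₀ : GalL L → Qbarˣ := fun g => zp ζ (y g) with hb₀
  have hb₀l : IsLvlAll₁ L b₀ := by
    obtain ⟨F, hF, h⟩ := hy
    exact ⟨F, hF, fun g n hn => by simp only [hb₀]; rw [h g n hn]⟩
  have hdb₀ : ∀ g h : GalL L,
      galU (g : GQ) (b₀ h) * b₀ g / b₀ (g * h) = ζ ^ (x (g, h)).val := by
    intro g h
    have := d1_zp hζp hζL y g h
    unfold d1 at this
    rw [hb₀]
    beta_reduce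
    rw [this, ← hxy g h]
    rfl
  -- inflation-restriction
  obtain ⟨b₁, hb₁l, hb₁Q, hdb₁⟩ := hI p S L hL ζ hζ hζL x hxl b₀ hb₀l hdb₀
  have hdb₁E : ∀ g h : GalL L, galU (g : GQ) (b₁ h) * b₁ g / b₁ (g * h) ∈ ES S := by
    intro g h
    rw [hdb₁ g h]
    exact zp_mem_ES hL hζp hζL _
  -- capitulation
  obtain ⟨m, α, hm, hαQ, he⟩ := hC p S hpS L hL b₁ hb₁l hb₁Q hdb₁E
  refine ⟨fun g => b₁ g ^ m * (α / galU (g : GQ) α), ⟨?_, he⟩, fun g h => ?_⟩
  · -- `S`-level
    have h1 : IsSLvl₁ S L (fun g => b₁ g ^ m) := isSLvl₁_comp hb₁l (fun u => u ^ m)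
    have h2 : IsSLvl₁ S L (fun g : GalL L => α / galU (g : GQ) α) := isSLvl₁_cob_QS hαQ
    have h3 := isSLvl₁_pair h1 h2
    exact isSLvl₁_comp h3 (fun uv => uv.1 * uv.2)
  · -- the coboundary
    have e1 : (fun g : GalL L => b₁ g ^ m * (α / galU (g : GQ) α))
        = b₁ ^ m * (fun g : GalL L => galU (g : GQ) α⁻¹ / α⁻¹) := by
      funext g
      simp only [Pi.mul_apply, Pi.pow_apply, map_inv]
      rw [inv_div_inv]
    have e2 := d1_mul (b₁ ^ m) (fun g : GalL L => galU (g : GQ) α⁻¹ / α⁻¹) g h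
    rw [d1_pow, d1_cob, mul_one] at e2
    have e3 : d1 b₁ g h = ζ ^ (x (g, h)).val := hdb₁ g h
    rw [e3] at e2
    have e4 : (ζ ^ (x (g, h)).val) ^ m = ζ ^ (x (g, h)).val := by
      rw [← pow_mul, pow_eq_pow_mod _ hζp, Nat.mul_mod, hm, mul_one, Nat.mod_mod,
        ← pow_eq_pow_mod _ hζp]
    rw [e4, ← e1] at e2
    exact e2

end Fermat.Agent.H54.Cft
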