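import Fermat.Agent.H54.Cft.N6Assembly
import Fermat.Agent.H90.Cft.ESTorsion
import Fermat.Agent.H87.Cft.ESPTorsion
import Fermat.Agent.H47.Cft.TorsionQuotPow
import Fermat.Agent.H48.Cft.KummerStep

/-!
# P-CFT / [N6'] (sub-lead helper54): unconditional result

* `kummerKernelBound : KummerKernelBoundStatement` : for a number field `L ≤ ℚ̄` unramified
  outside `S ∋ p` with `μ_p ⊆ L`, the kernel of `H²(G_S(L), μ_p) → H²(G_S(L), E_S)` has at most
  `#Cl_T(L)[p]` elements (elementary cocycle form).
* `sha2BoundElem_of_go2 : GO2ElemStatement → Sha2BoundElemStatement`.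

Leaves: helper90 (`esTorsion`), helper87 (`esPTorsionBound`), helper47 (`torsionQuotPow`),
helper48 (`kummerStep`).
-/

set_option autoImplicit false

namespace Fermat.Agent.H54.Cft

/-- **[N6']** (unconditional). -/
theorem kummerKernelBound : KummerKernelBoundStatement :=
  kummerKernelBound_of Fermat.Agent.H90.N6T.esTorsion Fermat.Agent.H87.Cft.esPTorsionBound
    Fermat.Agent.H47.Cft.torsionQuotPow Fermat.Agent.H48.N6K.kummerStep

/-- **[N6] from [GO2]** (elementary forms). -/
theorem sha2BoundElem_of_go2 (h2 : GO2ElemStatement) : Sha2BoundElemStatement :=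
  sha2BoundElem_of kummerKernelBound h2

end Fermat.Agent.H54.Cft
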