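import Fermat.Agent.H54.Cft.GO2Assembly
import Fermat.Agent.H54.Cft.N6Final
import Fermat.Agent.H61.Cft.Inf2S
import Fermat.Agent.H80.CFT.Div
import Fermat.Agent.H49.BS6.UnramTriv

/-!
# P-CFT / [GO2'] (sub-lead helper54): everything except the Hasse principle

* `capPlus : CapPlusStatement` (unconditional; helper80's `divCoboundary`);
* `go2Elem_of_hasse : HasseMuStatement → GO2ElemStatement`;
* `sha2BoundElem_of_hasse : HasseMuStatement → Sha2BoundElemStatement`
  (`#Ш²(G_S(L), μ_p) ≤ #Cl_T(L)[p]`, elementary cocycle form).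

Leaves: helper61 (`inf2S`), helper80 + helper73 + helper90 (`divCoboundary`),
helper49 + helper3 (`unramLocTriv`), and the [N6'] block (helper90, helper87, helper47,
helper48).  The only open input is the Hasse principle `HasseMuStatement` ([HASSE], helper97).
-/

set_option autoImplicit false

namespace Fermat.Agent.H54.Cft

/-- **[CAP+]** (unconditional). -/
theorem capPlus : CapPlusStatement :=
  capPlus_of_div Fermat.Agent.H80.Div.divCoboundary

/-- **[GO2']** from the Hasse principle. -/
theorem go2Elem_of_hasse (hH : HasseMuStatement) : GO2ElemStatement :=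
  go2Elem_of Fermat.Agent.H49.BS6.unramLocTriv hH Fermat.Agent.H61.GO2.inf2S capPlus

/-- **[N6]** from the Hasse principle: `#Ш²(G_S(L), μ_p) ≤ #Cl_T(L)[p]`. -/
theorem sha2BoundElem_of_hasse (hH : HasseMuStatement) : Sha2BoundElemStatement :=
  sha2BoundElem_of_go2 (go2Elem_of_hasse hH)

end Fermat.Agent.H54.Cft
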