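import Fermat.Agent.H54.Cft.KummerInterfaces

/-!
# P-CFT / KUMMER DICTIONARY, KD-5: finiteness of `continuousH1S` (helper54)

`continuousH1SFinite_of : LevelCharFiniteStatement → ContinuousH1SFiniteStatement`.

For a finite-dimensional smooth `𝔽_p[G_ℚ]`-module `M` choose a number field `L ∋ ζ_p` with `G_L`
acting trivially on `M`.  An `S`-level cocycle `c` is determined by
* its restriction to `G_L`, a homomorphism `G_L → M` whose coordinates are `S`-level characters
  of `G_L` (finitely many by KD-4), and
* its values on representatives of `G_ℚ / G_L` (finitely many cosets, `M` finite).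
Hence the space of `S`-level cocycles is finite, and so is its image `continuousH1S S M`.
-/

set_option autoImplicit false
set_option linter.style.haveILetI false

open groupCohomology

namespace Fermat.Agent.H54.Cft

/-- A cocycle is determined by its restriction to a subgroup `H` acting trivially... more
precisely by its restriction to `H` and its values on a set of representatives. -/
theorem cocycle_eq_of_eq_on {k : Type} [CommRing k] {G : Type} [Group G] (M : Rep k G)
    (H : Subgroup G) (c c' : cocycles₁ M) (rep : G → G)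
    (hrep : ∀ g, (rep g)⁻¹ * g ∈ H) (hH : ∀ s ∈ H, c s = c' s)
    (hr : ∀ g, c (rep g) = c' (rep g)) : c = c' := by
  apply Subtype.ext
  funext g
  have hc := (mem_cocycles₁_iff (c : G → M)).mp c.2 (rep g) ((rep g)⁻¹ * g)
  have hc' := (mem_cocycles₁_iff (c' : G → M)).mp c'.2 (rep g) ((rep g)⁻¹ * g)
  rw [mul_inv_cancel_left] at hc hc'
  show (c : G → M) g = (c' : G → M) g
  rw [hc, hc']
  have h1 : (c : G → M) ((rep g)⁻¹ * g) = (c' : G → M) ((rep g)⁻¹ * g) := hH _ (hrep g)
  have h2 : (c : G → M) (rep g) = (c' : G → M) (rep g) := hr g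
  rw [h1, h2]

/-- **KD-5 from KD-4.** -/
theorem continuousH1SFinite_of (h4 : LevelCharFiniteStatement) :
    ContinuousH1SFiniteStatement := by
  intro p _ S M _ hsm
  classical
  have hp : p.Prime := Fact.out
  haveI : NeZero p := ⟨hp.ne_zero⟩
  -- a basis of `M` and the fields trivialising its members
  let B := Module.finBasis (ZMod p) M
  choose F hFfin hFfix using hsm
  haveI : NeZero ((p : ℕ) : Qbar) := ⟨by exact_mod_cast hp.ne_zero⟩
  obtain ⟨ζ, hζ⟩ : ∃ ζ : Qbar, IsPrimitiveRoot ζ p :=
    HasEnoughRootsOfUnity.exists_primitiveRoot Qbar p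
  let L : IntermediateField ℚ Qbar :=
    (⨆ i : Fin (Module.finrank (ZMod p) M), F (B i)) ⊔ IntermediateField.adjoin ℚ {ζ}
  haveI : ∀ i : Fin (Module.finrank (ZMod p) M), FiniteDimensional ℚ (F (B i)) :=
    fun i => hFfin (B i)
  haveI hζfin : FiniteDimensional ℚ (IntermediateField.adjoin ℚ ({ζ} : Set Qbar)) :=
    IntermediateField.adjoin.finiteDimensional (hζ.isIntegral hp.pos).tower_top
  haveI hLfin : FiniteDimensional ℚ L := IntermediateField.finiteDimensional_sup _ _
  have hζL : ζ ∈ L :=
    (le_sup_right : IntermediateField.adjoin ℚ {ζ} ≤ L)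
      (IntermediateField.mem_adjoin_simple_self ℚ ζ)
  have hroots : ∀ ω : Qbar, ω ^ p = 1 → ω ∈ L := by
    intro ω hω
    obtain ⟨i, -, rfl⟩ := hζ.eq_pow_of_pow_eq_one hω
    exact pow_mem hζL i
  have htriv : ∀ s ∈ L.fixingSubgroup, ∀ m : M, M.ρ s m = m := by
    intro s hs m
    have hB : ∀ i, M.ρ s (B i) = B i := by
      intro i
      apply hFfix (B i) s
      have hle : F (B i) ≤ L :=
        le_trans (le_iSup (fun i => F (B i)) i) le_sup_left
      exact IntermediateField.fixingSubgroup_antitone hle hs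
    have : M.ρ s = LinearMap.id := B.ext (fun i => hB i)
    rw [this]
    rfl
  obtain ⟨bs, hbs⟩ := h4 p S L hLfin hroots
  -- representatives of `G_ℚ / G_L`
  let rep : (L →ₐ[ℚ] Qbar) → GQ := fun e =>
    if h : ∃ g : GQ, ∀ x : L, g x = e x then h.choose else 1
  let res : GQ → (L →ₐ[ℚ] Qbar) := fun g => (g : Qbar →ₐ[ℚ] Qbar).comp L.val
  have hrep : ∀ g : GQ, (rep (res g))⁻¹ * g ∈ L.fixingSubgroup := by
    intro g
    have hex : ∃ g' : GQ, ∀ x : L, g' x = res g x := ⟨g, fun x => rfl⟩
    have hch : ∀ x : L, rep (res g) x = g x := by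
      intro x
      have := hex.choose_spec x
      simp only [rep, dif_pos hex]
      exact this
    rw [IntermediateField.mem_fixingSubgroup_iff]
    intro x hx
    show (rep (res g))⁻¹ (g x) = x
    rw [← hch ⟨x, hx⟩]
    show ((rep (res g))⁻¹ * rep (res g)) x = x
    rw [inv_mul_cancel]
    rfl
  -- the coordinates of the restriction are level characters
  have hchar : ∀ (c : levelCocyclesS₁ S M) (i : Fin (Module.finrank (ZMod p) M)),
      IsLevelCharS S L (fun g => B.repr ((c : cocycles₁ M) g) i) := by
    intro c i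
    refine ⟨?_, ?_⟩
    · intro σ hσ τ hτ
      have hc := (mem_cocycles₁_iff ((c : cocycles₁ M) : GQ → M)).mp (c : cocycles₁ M).2 σ τ
      show B.repr (((c : cocycles₁ M) : GQ → M) (σ * τ)) i = _
      rw [hc, htriv σ hσ, map_add, Finsupp.add_apply, add_comm]
    · obtain ⟨F', hF', hconst⟩ : IsLevelConstantS₁ S ((c : cocycles₁ M) : GQ → M) := c.2
      refine ⟨F', hF', fun s hs _ => ?_⟩
      have h1 := hconst 1 s hs
      rw [one_mul] at h1
      show B.repr (((c : cocycles₁ M) : GQ → M) s) i = 0
      rw [h1]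
      have h0 : ((c : cocycles₁ M) : GQ → M) 1 = 0 := cocycles₁_map_one (c : cocycles₁ M)
      rw [h0, map_zero]
      rfl
  choose φ hφmem hφ using fun (c : levelCocyclesS₁ S M)
    (i : Fin (Module.finrank (ZMod p) M)) => hbs _ (hchar c i)
  -- the injection into a finite type
  haveI : Finite M := Module.finite_of_finite (ZMod p)
  let Φ : levelCocyclesS₁ S M →
      ((L →ₐ[ℚ] Qbar) → M) × (Fin (Module.finrank (ZMod p) M) → bs) :=
    fun c => (fun e => (c : cocycles₁ M) (rep e), fun i => ⟨φ c i, hφmem c i⟩)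
  have hΦ : Function.Injective Φ := by
    intro c c' hcc
    have h1 : ∀ e, (c : cocycles₁ M) (rep e) = (c' : cocycles₁ M) (rep e) := fun e =>
      congrFun (congrArg Prod.fst hcc) e
    have h2 : ∀ i, φ c i = φ c' i := fun i =>
      congrArg Subtype.val (congrFun (congrArg Prod.snd hcc) i)
    apply Subtype.ext
    refine cocycle_eq_of_eq_on M L.fixingSubgroup _ _ (fun g => rep (res g)) hrep ?_
      (fun g => h1 _)
    intro s hs
    apply B.repr.injective
    ext i
    have e1 := hφ c i s hs
    have e2 := hφ c' i s hs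
    rw [e1, e2, h2]
  haveI : Finite (levelCocyclesS₁ S M) := Finite.of_injective Φ hΦ
  have hfg : (levelCocyclesS₁ S M).FG := Module.Finite.iff_fg.mp (Module.Finite.of_finite)
  exact Module.Finite.iff_fg.mpr (hfg.map _)

end Fermat.Agent.H54.Cft
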