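import Fermat.Agent.H54.Cft.KummerCharFinite
import Fermat.Agent.H54.Cft.KummerH1Finite

/-!
# P-CFT / KUMMER DICTIONARY: assembly of the finiteness statements (helper54)

`continuousH1SFinite_of_leaves : Hilbert90LStatement → KummerRamStatement →
  SelmerFiniteStatement → ContinuousH1SFiniteStatement`.
-/

set_option autoImplicit false

namespace Fermat.Agent.H54.Cft

/-- **KD-5 from the leaves KD-1, KD-2, KD-3.** -/
theorem continuousH1SFinite_of_leaves (h1 : Hilbert90LStatement) (h2 : KummerRamStatement)
    (h3 : SelmerFiniteStatement) : ContinuousH1SFiniteStatement :=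
  continuousH1SFinite_of (levelCharFinite_of h1 h2 h3)

end Fermat.Agent.H54.Cft
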