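import Fermat.Agent.H54.Cft.KummerInterfaces3
import Fermat.Agent.H54.Cft.KummerChar

/-!
# P-CFT / KUMMER DICTIONARY, KD-8' and KD-10 (helper54)

* `kummerBijectionAny_of : Hilbert90LStatement → KummerBijectionAnyStatement` (KD-8');
* `levelCharCount_of : KummerBijectionStatement → SelmerCountStatement →
    LevelCharCountStatement` (KD-10).
-/

set_option autoImplicit false
set_option linter.style.haveILetI false

open IsDedekindDomain NumberField

namespace Fermat.Agent.H54.Cft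

/-- **KD-8' from KD-1**: the Kummer bijection over an arbitrary intermediate field. -/
theorem kummerBijectionAny_of (h1 : Hilbert90LStatement) : KummerBijectionAnyStatement := by
  intro p _ L hroots ζ hζ
  haveI := isGalois_Qbar_kd
  have hp : p.Prime := Fact.out
  have hζL : ζ ∈ L := hroots ζ hζ.pow_eq_one
  refine ⟨?_, ?_, ?_⟩
  · rintro b ⟨hadd, F, hF, hvan⟩
    obtain ⟨α, hα⟩ := h1 p L ζ hζ hζL b hadd ⟨F, hF, hvan⟩
    have hmem : α ^ p ∈ L := kummerGen_pow_mem hζ hα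
    have hne : (⟨α ^ p, hmem⟩ : L) ≠ 0 := by
      intro h0
      have := congrArg Subtype.val h0
      exact pow_ne_zero p hα.1 this
    exact ⟨α, Units.mk0 ⟨α ^ p, hmem⟩ hne, hα, rfl⟩
  · intro α a ha
    have hα0 : α ≠ 0 := by
      intro h0
      rw [h0, zero_pow hp.ne_zero] at ha
      exact a.ne_zero (Subtype.ext ha.symm)
    have hαL : α ^ p ∈ L := by
      rw [ha]
      exact (a : L).2
    obtain ⟨b, hadd, hgen, hvan⟩ := kummerCharExists p L ζ hζ hζL α hα0 hαL
    have hαint : IsIntegral ℚ α := Algebra.IsSeparable.isIntegral ℚ α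
    refine ⟨b, ⟨hadd, IntermediateField.adjoin ℚ {α},
      IntermediateField.adjoin.finiteDimensional hαint, fun s hs hsL => hvan s hsL ?_⟩, hgen⟩
    exact (IntermediateField.mem_fixingSubgroup_iff _ s).mp hs α
      (IntermediateField.mem_adjoin_simple_self ℚ α)
  · intro b b' α α' a a' hα hα' ha ha'
    exact kummerChar_eq_iff hζ hroots hα hα' ha ha'

/-- **KD-10 from KD-8 and KD-9.** -/
theorem levelCharCount_of (h8 : KummerBijectionStatement) (h9 : SelmerCountStatement) :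
    LevelCharCountStatement := by
  intro p _ S hpS L _ hL hroots hT
  classical
  have hp : p.Prime := Fact.out
  haveI : NeZero p := ⟨hp.ne_zero⟩
  haveI : NeZero ((p : ℕ) : Qbar) := ⟨by exact_mod_cast hp.ne_zero⟩
  obtain ⟨ζ, hζ⟩ : ∃ ζ : Qbar, IsPrimitiveRoot ζ p :=
    HasEnoughRootsOfUnity.exists_primitiveRoot Qbar p
  have hζL : ζ ∈ L := hroots ζ hζ.pow_eq_one
  have hζ' : IsPrimitiveRoot (⟨ζ, hζL⟩ : L) p :=
    (IsPrimitiveRoot.coe_submonoidClass_iff (N := L) (ζ := ⟨ζ, hζL⟩)).mp hζ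
  obtain ⟨h8a, h8b, h8c⟩ := h8 p S hpS L hL hroots ζ hζ
  obtain ⟨R, hRsel, hRrep, hRinj, hRcard⟩ := h9 L (primesOverSFinset S L hT) p ⟨ζ, hζL⟩ hζ'
  have hsel_iff : ∀ a : Lˣ, IsSelmer S p a ↔
      ∀ v : HeightOneSpectrum (𝓞 L), v ∉ primesOverSFinset S L hT → OrdDvdAt p v a := by
    intro a
    constructor
    · intro h v hv
      exact h v (fun hv' => hv ((Set.Finite.mem_toFinset hT).mpr hv'))
    · intro h v hv
      exact h v (fun hv' => hv ((Set.Finite.mem_toFinset hT).mp hv'))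
  -- a `p`-th root of every element
  have hroot : ∀ r : Lˣ, ∃ α : Qbar, α ^ p = (((r : Lˣ) : L) : Qbar) := fun r =>
    IsAlgClosed.exists_pow_nat_eq _ hp.pos
  choose rt hrt using hroot
  have hchar : ∀ r : Lˣ, r ∈ R → ∃ b : GQ → ZMod p, IsLevelCharS S L b ∧
      IsKummerGen L ζ b (rt r) := fun r hr =>
    h8b (rt r) r (hrt r) ((hsel_iff r).mpr (hRsel r hr))
  let ch : Lˣ → (GQ → ZMod p) := fun r => if h : r ∈ R then (hchar r h).choose else 0
  have hch : ∀ r ∈ R, IsLevelCharS S L (ch r) ∧ IsKummerGen L ζ (ch r) (rt r) := by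
    intro r hr
    simp only [ch, dif_pos hr]
    exact (hchar r hr).choose_spec
  have hinj : ∀ r ∈ R, ∀ r' ∈ R, (∀ τ ∈ L.fixingSubgroup, ch r τ = ch r' τ) → r = r' := by
    intro r hr r' hr' hrr
    exact hRinj r hr r' hr'
      ((h8c (ch r) (ch r') (rt r) (rt r') r r' (hch r hr).2 (hch r' hr').2 (hrt r)
        (hrt r')).mp hrr)
  refine ⟨R.image ch, ?_, ?_, ?_, ?_⟩
  · intro b hb
    obtain ⟨r, hr, rfl⟩ := Finset.mem_image.mp hb
    exact (hch r hr).1
  · intro b hb
    obtain ⟨α, a, hα, ha, hasel⟩ := h8a b hb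
    obtain ⟨r, hr, c, hrc⟩ := hRrep a ((hsel_iff a).mp hasel)
    refine ⟨ch r, Finset.mem_image_of_mem _ hr, fun τ hτ => ?_⟩
    have := (h8c (ch r) b (rt r) α r a (hch r hr).2 hα (hrt r) ha).mpr ⟨c, hrc⟩
    exact (this τ hτ).symm
  · intro b hb b' hb' hbb
    obtain ⟨r, hr, rfl⟩ := Finset.mem_image.mp hb
    obtain ⟨r', hr', rfl⟩ := Finset.mem_image.mp hb'
    rw [hinj r hr r' hr' hbb]
  · rw [Finset.card_image_of_injOn, hRcard]
    intro r hr r' hr' hrr
    exact hinj r hr r' hr' (fun τ _ => congrFun hrr τ)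

end Fermat.Agent.H54.Cft
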