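import Fermat.Agent.H54.Cft.KummerAssembly
import Fermat.Agent.H54.Cft.KummerLevel
import Fermat.Agent.H99.Cft.Hilbert90L
import Fermat.Agent.H73.KummerRamKD2
import Fermat.Agent.H16.CftKummerUnram
import Fermat.Agent.H93.Cft.SelmerFinite

/-!
# P-CFT / KUMMER DICTIONARY: unconditional results (helper54, with helper99, helper73,
helper16, helper93)

* `levelCharFinite : LevelCharFiniteStatement` : finitely many `S`-level characters of `G_L`;
* `continuousH1SFinite : ContinuousH1SFiniteStatement` : `continuousH1S S M` is
  finite-dimensional for every finite-dimensional smooth `𝔽_p[G_ℚ]`-module;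
* `kummerLevel : KummerLevelStatement`, `kummerBijection : KummerBijectionStatement` :
  `S`-level characters of `G_L` ↔ Selmer classes (`L` unramified outside `S ∋ p`, `μ_p ⊆ L`).
-/

set_option autoImplicit false

namespace Fermat.Agent.H54.Cft

/-- **KD-4** (unconditional). -/
theorem levelCharFinite : LevelCharFiniteStatement :=
  levelCharFinite_of Fermat.Agent.H99.Cft.hilbert90L Fermat.Agent.H73.KD2.kummerRam
    Fermat.Agent.H93.Selmer.selmerFinite

/-- **KD-5** (unconditional): `continuousH1S S M` is finite-dimensional. -/
theorem continuousH1SFinite : ContinuousH1SFiniteStatement :=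
  continuousH1SFinite_of levelCharFinite

/-- **KD-7** (unconditional). -/
theorem kummerLevel : KummerLevelStatement :=
  kummerLevel_of Fermat.Agent.H16.kummerUnramStatement

/-- **KD-8** (unconditional): the Kummer bijection. -/
theorem kummerBijection : KummerBijectionStatement :=
  kummerBijection_of Fermat.Agent.H99.Cft.hilbert90L Fermat.Agent.H73.KD2.kummerRam kummerLevel

end Fermat.Agent.H54.Cft
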