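import Fermat.Agent.H54.Cft.KummerFinal
import Fermat.Agent.H54.Cft.KummerCount

/-!
# P-CFT / KUMMER DICTIONARY: unconditional results, part 2 (helper54)

* `kummerBijectionAny : KummerBijectionAnyStatement` : level characters of `G_L` ↔
  `Lˣ / (Lˣ)^p` for ANY intermediate field `L ≤ ℚ̄` containing `μ_p`;
* `levelCharCount_of_selmerCount : SelmerCountStatement → LevelCharCountStatement`.
-/

set_option autoImplicit false

namespace Fermat.Agent.H54.Cft

/-- **KD-8'** (unconditional). -/
theorem kummerBijectionAny : KummerBijectionAnyStatement :=
  kummerBijectionAny_of Fermat.Agent.H99.Cft.hilbert90L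

/-- **KD-10** from KD-9. -/
theorem levelCharCount_of_selmerCount (h9 : SelmerCountStatement) : LevelCharCountStatement :=
  levelCharCount_of kummerBijection h9

end Fermat.Agent.H54.Cft
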