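import Fermat.Agent.H54.Cft.KummerInterfaces

/-!
# P-CFT / KUMMER DICTIONARY (sub-lead helper54): interface, part 2 (the Kummer bijection)

* `primesOverS S L` : the primes of the number field `L` over `S`;
  `IsSelmer S L p a` : `p ∣ ord_v a` for every prime `v` of `L` not over `S`.
* `KummerCharExistsStatement` (KD-6): every `α ≠ 0` with `α ^ p ∈ L` has a Kummer character.
* `KummerLevelStatement` (KD-7): for `L` unramified outside `S ∋ p` and `a` Selmer, `L(α)` is
  unramified outside `S`.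
* `KummerBijectionStatement` (KD-8): `S`-level characters of `G_L` correspond bijectively to
  Selmer classes.
-/

set_option autoImplicit false

open IsDedekindDomain NumberField

namespace Fermat.Agent.H54.Cft

/-- The primes of `L` over `S`. -/
def primesOverS (S : Finset Nat.Primes) (K : Type) [Field K] [NumberField K] :
    Set (HeightOneSpectrum (𝓞 K)) :=
  {v | ∃ q ∈ S, (((q : ℕ) : ℕ) : 𝓞 K) ∈ v.asIdeal}

/-- `a` is a Selmer element: `p ∣ ord_v a` for every prime `v` not over `S`. -/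
def IsSelmer (S : Finset Nat.Primes) {K : Type} [Field K] [NumberField K] (p : ℕ) (a : Kˣ) :
    Prop :=
  ∀ v : HeightOneSpectrum (𝓞 K), v ∉ primesOverS S K → OrdDvdAt p v a

/-- **KD-6 (Kummer character of an element)**: `L ≤ ℚ̄` arbitrary with `ζ_p ∈ L`; every `α ≠ 0`
with `α ^ p ∈ L` has a Kummer character `b`, additive on `G_L`, vanishing on the stabiliser
of `α` in `G_L`. -/
def KummerCharExistsStatement : Prop :=
  ∀ (p : ℕ) [Fact p.Prime] (L : IntermediateField ℚ Qbar) (ζ : Qbar), IsPrimitiveRoot ζ p →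
    ζ ∈ L → ∀ α : Qbar, α ≠ 0 → α ^ p ∈ L →
      ∃ b : GQ → ZMod p, IsAddCharOn L b ∧ IsKummerGen L ζ b α ∧
        ∀ s ∈ L.fixingSubgroup, s α = α → b s = 0

/-- **KD-7 (Kummer extensions by Selmer elements are unramified outside `S`)**. -/
def KummerLevelStatement : Prop :=
  ∀ (p : ℕ) [Fact p.Prime] (S : Finset Nat.Primes), ExtCitation.pPrime p ∈ S →
    ∀ (L : IntermediateField ℚ Qbar) [NumberField L], L.IsUnramifiedOutside S →
    (∀ ω : Qbar, ω ^ p = 1 → ω ∈ L) →
    ∀ (α : Qbar) (a : Lˣ), α ^ p = (((a : Lˣ) : L) : Qbar) → IsSelmer S p a →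
      (L ⊔ IntermediateField.adjoin ℚ {α}).IsUnramifiedOutside S

/-- **KD-8 (Kummer bijection)**: for a number field `L ≤ ℚ̄` unramified outside `S ∋ p` and
containing `μ_p`:
* every `S`-level character of `G_L` is the Kummer character of a Selmer element;
* every `p`-th root of a Selmer element has an `S`-level Kummer character;
* two Kummer characters agree on `G_L` iff the elements differ by a `p`-th power of `Lˣ`. -/
def KummerBijectionStatement : Prop :=
  ∀ (p : ℕ) [Fact p.Prime] (S : Finset Nat.Primes), ExtCitation.pPrime p ∈ S →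
    ∀ (L : IntermediateField ℚ Qbar) [NumberField L], L.IsUnramifiedOutside S →
    (∀ ω : Qbar, ω ^ p = 1 → ω ∈ L) → ∀ ζ : Qbar, IsPrimitiveRoot ζ p →
    (∀ b : GQ → ZMod p, IsLevelCharS S L b →
      ∃ (α : Qbar) (a : Lˣ), IsKummerGen L ζ b α ∧ α ^ p = (((a : Lˣ) : L) : Qbar) ∧
        IsSelmer S p a) ∧
    (∀ (α : Qbar) (a : Lˣ), α ^ p = (((a : Lˣ) : L) : Qbar) → IsSelmer S p a →
      ∃ b : GQ → ZMod p, IsLevelCharS S L b ∧ IsKummerGen L ζ b α) ∧
    (∀ (b b' : GQ → ZMod p) (α α' : Qbar) (a a' : Lˣ), IsKummerGen L ζ b α →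
      IsKummerGen L ζ b' α' → α ^ p = (((a : Lˣ) : L) : Qbar) →
      α' ^ p = (((a' : Lˣ) : L) : Qbar) →
      ((∀ τ ∈ L.fixingSubgroup, b τ = b' τ) ↔ ∃ c : Lˣ, a' = a * c ^ p))

end Fermat.Agent.H54.Cft
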