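import Fermat.Agent.H54.Cft.KummerInterfaces2

/-!
# P-CFT / KUMMER DICTIONARY (sub-lead helper54): interface, part 3 (counting)

* `classSubgroupT K T`, `ClT K T`, `clTorsionCard K T p` : the `T`-class group `Cl_T(K)` and
  the number of its classes killed by `p`;
* `SelmerCountStatement` (KD-9): `#(V_T / (Kˣ)^p) = p ^ (#{infinite places} + #T) * #Cl_T[p]`
  (for `μ_p ⊆ K`), as a system of representatives;
* `LevelCharCountStatement` (KD-10): the same count for the `S`-level characters of `G_L`;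
* `KummerBijectionAnyStatement` (KD-8'): Kummer bijection without ramification conditions, for
  ANY intermediate field `L ≤ ℚ̄` containing `μ_p` (e.g. decomposition fields).
-/

set_option autoImplicit false

open IsDedekindDomain NumberField

namespace Fermat.Agent.H54.Cft

/-- The subgroup of the class group generated by the classes of the primes in `T`. -/
noncomputable def classSubgroupT (K : Type) [Field K] [NumberField K]
    (T : Finset (HeightOneSpectrum (𝓞 K))) : Subgroup (ClassGroup (𝓞 K)) :=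
  Subgroup.closure {c | ∃ v ∈ T, c = ClassGroup.mk0
    ⟨v.asIdeal, mem_nonZeroDivisors_of_ne_zero v.ne_bot⟩}

/-- The `T`-class group `Cl_T(K) = Cl(K) / ⟨T⟩`. -/
abbrev ClT (K : Type) [Field K] [NumberField K] (T : Finset (HeightOneSpectrum (𝓞 K))) :
    Type :=
  ClassGroup (𝓞 K) ⧸ classSubgroupT K T

/-- The number of classes of `Cl_T(K)` killed by `p`. -/
noncomputable def clTorsionCard (K : Type) [Field K] [NumberField K]
    (T : Finset (HeightOneSpectrum (𝓞 K))) (p : ℕ) : ℕ :=
  Nat.card {c : ClT K T // c ^ p = 1}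

/-- **KD-9 (order of the Selmer group)**: for a number field `K ∋ ζ_p` and a finite set `T` of
primes there is a system `R` of representatives of `{a : p ∣ ord_v a for v ∉ T}` modulo `p`-th
powers with `#R = p ^ (#{infinite places} + #T) * #Cl_T(K)[p]`. -/
def SelmerCountStatement : Prop :=
  ∀ (K : Type) [Field K] [NumberField K] (T : Finset (HeightOneSpectrum (𝓞 K))) (p : ℕ)
    [Fact p.Prime] (ζ : K), IsPrimitiveRoot ζ p →
    ∃ R : Finset Kˣ,
      (∀ r ∈ R, ∀ v : HeightOneSpectrum (𝓞 K), v ∉ T → OrdDvdAt p v r) ∧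
      (∀ a : Kˣ, (∀ v : HeightOneSpectrum (𝓞 K), v ∉ T → OrdDvdAt p v a) →
        ∃ r ∈ R, ∃ c : Kˣ, a = r * c ^ p) ∧
      (∀ r ∈ R, ∀ r' ∈ R, (∃ c : Kˣ, r' = r * c ^ p) → r = r') ∧
      R.card = p ^ (Fintype.card (InfinitePlace K) + T.card) * clTorsionCard K T p

/-- The primes of `K` over `S`, as a finset. -/
noncomputable def primesOverSFinset (S : Finset Nat.Primes) (K : Type) [Field K]
    [NumberField K] (h : (primesOverS S K).Finite) : Finset (HeightOneSpectrum (𝓞 K)) :=
  h.toFinset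

/-- **KD-10 (number of `S`-level characters)**: for a number field `L ≤ ℚ̄` unramified outside
`S ∋ p` with `μ_p ⊆ L` there is a system `bs` of representatives of the `S`-level characters of
`G_L` modulo equality on `G_L`, with
`#bs = p ^ (#{infinite places} + #{primes over S}) * #Cl_T(L)[p]`. -/
def LevelCharCountStatement : Prop :=
  ∀ (p : ℕ) [Fact p.Prime] (S : Finset Nat.Primes), ExtCitation.pPrime p ∈ S →
    ∀ (L : IntermediateField ℚ Qbar) [NumberField L], L.IsUnramifiedOutside S →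
    (∀ ω : Qbar, ω ^ p = 1 → ω ∈ L) → ∀ (hT : (primesOverS S L).Finite),
    ∃ bs : Finset (GQ → ZMod p),
      (∀ b ∈ bs, IsLevelCharS S L b) ∧
      (∀ b : GQ → ZMod p, IsLevelCharS S L b →
        ∃ b' ∈ bs, ∀ τ ∈ L.fixingSubgroup, b τ = b' τ) ∧
      (∀ b ∈ bs, ∀ b' ∈ bs, (∀ τ ∈ L.fixingSubgroup, b τ = b' τ) → b = b') ∧
      bs.card = p ^ (Fintype.card (InfinitePlace L) + (primesOverSFinset S L hT).card) *
        clTorsionCard L (primesOverSFinset S L hT) p

/-- `b` is a level character of `G_L` (no ramification condition): additive on `G_L` and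
vanishing on `G_L ∩ G_F` for some finite `F`. -/
def IsLevelChar (L : IntermediateField ℚ Qbar) {p : ℕ} (b : GQ → ZMod p) : Prop :=
  IsAddCharOn L b ∧ ∃ F : IntermediateField ℚ Qbar, FiniteDimensional ℚ F ∧
    ∀ s ∈ F.fixingSubgroup, s ∈ L.fixingSubgroup → b s = 0

/-- **KD-8' (Kummer bijection over any field)**: for ANY intermediate field `L ≤ ℚ̄`
containing `μ_p` (e.g. a decomposition field): level characters of `G_L` correspond bijectively
to `Lˣ / (Lˣ)^p`. -/
def KummerBijectionAnyStatement : Prop :=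
  ∀ (p : ℕ) [Fact p.Prime] (L : IntermediateField ℚ Qbar),
    (∀ ω : Qbar, ω ^ p = 1 → ω ∈ L) → ∀ ζ : Qbar, IsPrimitiveRoot ζ p →
    (∀ b : GQ → ZMod p, IsLevelChar L b →
      ∃ (α : Qbar) (a : Lˣ), IsKummerGen L ζ b α ∧ α ^ p = (((a : Lˣ) : L) : Qbar)) ∧
    (∀ (α : Qbar) (a : Lˣ), α ^ p = (((a : Lˣ) : L) : Qbar) →
      ∃ b : GQ → ZMod p, IsLevelChar L b ∧ IsKummerGen L ζ b α) ∧
    (∀ (b b' : GQ → ZMod p) (α α' : Qbar) (a a' : Lˣ), IsKummerGen L ζ b α →
      IsKummerGen L ζ b' α' → α ^ p = (((a : Lˣ) : L) : Qbar) →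
      α' ^ p = (((a' : Lˣ) : L) : Qbar) →
      ((∀ τ ∈ L.fixingSubgroup, b τ = b' τ) ↔ ∃ c : Lˣ, a' = a * c ^ p))

end Fermat.Agent.H54.Cft
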