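import Fermat.Agent.H54.Cft.N6Interfaces

/-!
# P-CFT / [GO1]+[N6] (sub-lead helper54): assembly

* `esCocycles S L` : the group `Z¹_S(G_L, E_S)`;
* `kummerKernelBound_of` : `[N6-T] + [N6-P] + [N6-G] + [N6-K] ⟹ [N6']`;
* `sha2BoundElem_of` : `[N6'] + [GO2] ⟹ [N6]` (elementary form).
-/

set_option autoImplicit false

open IsDedekindDomain NumberField

namespace Fermat.Agent.H54.Cft

variable (S : Finset Nat.Primes) (L : IntermediateField ℚ Qbar)

lemma isSLvl₁_one : IsSLvl₁ S L (1 : GalL L → Qbarˣ) :=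
  ⟨⊥, IntermediateField.isUnramifiedOutside_bot S, fun _ _ _ => rfl⟩

variable {S L}

lemma IsSLvl₁.mul {x y : GalL L → Qbarˣ} (hx : IsSLvl₁ S L x) (hy : IsSLvl₁ S L y) :
    IsSLvl₁ S L (x * y) := by
  obtain ⟨F, hF, h⟩ := hx
  obtain ⟨F', hF', h'⟩ := hy
  refine ⟨F ⊔ F', hF.sup hF', fun g n hn => ?_⟩
  rw [IntermediateField.fixingSubgroup_sup] at hn
  simp only [Pi.mul_apply]
  rw [h g n hn.1, h' g n hn.2]

lemma IsSLvl₁.inv {x : GalL L → Qbarˣ} (hx : IsSLvl₁ S L x) : IsSLvl₁ S L x⁻¹ := by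
  obtain ⟨F, hF, h⟩ := hx
  refine ⟨F, hF, fun g n hn => ?_⟩
  simp only [Pi.inv_apply]
  rw [h g n hn]

variable (S L)

/-- The group `Z¹_S(G_L, E_S)` of `S`-level cocycles with values in `E_S`. -/
def esCocycles : Subgroup (GalL L → Qbarˣ) where
  carrier := {c | IsESCocycle S L c}
  one_mem' := ⟨fun g h => by simp, isSLvl₁_one S L, fun _ => Subgroup.one_mem _⟩
  mul_mem' := by
    rintro c c' ⟨hc, hl, hv⟩ ⟨hc', hl', hv'⟩
    refine ⟨fun g h => ?_, hl.mul hl', fun g => Subgroup.mul_mem _ (hv g) (hv' g)⟩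
    simp only [Pi.mul_apply]
    rw [hc g h, hc' g h, map_mul]
    exact mul_mul_mul_comm _ _ _ _
  inv_mem' := by
    rintro c ⟨hc, hl, hv⟩
    refine ⟨fun g h => ?_, hl.inv, fun g => Subgroup.inv_mem _ (hv g)⟩
    simp only [Pi.inv_apply]
    rw [hc g h, mul_inv, map_inv]

lemma mem_esCocycles_iff (c : GalL L → Qbarˣ) : c ∈ esCocycles S L ↔ IsESCocycle S L c :=
  Iff.rfl

/-- The coboundaries inside `Z¹_S(G_L, E_S)`. -/
def esCoboundaries : Subgroup (esCocycles S L) where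
  carrier := {z | IsESCoboundary S L (z : GalL L → Qbarˣ)}
  one_mem' := ⟨1, Subgroup.one_mem _, fun g => by simp⟩
  mul_mem' := by
    rintro z z' ⟨u, hu, h⟩ ⟨u', hu', h'⟩
    refine ⟨u * u', Subgroup.mul_mem _ hu hu', fun g => ?_⟩
    simp only [Subgroup.coe_mul, Pi.mul_apply]
    rw [h g, h' g, map_mul]
    exact div_mul_div_comm _ _ _ _
  inv_mem' := by
    rintro z ⟨u, hu, h⟩
    refine ⟨u⁻¹, Subgroup.inv_mem _ hu, fun g => ?_⟩
    simp only [Subgroup.coe_inv, Pi.inv_apply]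
    rw [h g, map_inv, inv_div, inv_div_inv]

lemma mem_esCoboundaries_iff (z : esCocycles S L) :
    z ∈ esCoboundaries S L ↔ IsESCoboundary S L (z : GalL L → Qbarˣ) := Iff.rfl

/-- **Assembly of [N6']** from the four leaves. -/
theorem kummerKernelBound_of (hT : ESTorsionStatement) (hP : ESPTorsionBoundStatement)
    (hG : TorsionQuotPowStatement) (hK : KummerStepStatement) :
    KummerKernelBoundStatement := by
  intro p _ S hpS L _ hL hμ hTfin ζ hζ
  classical
  have hp : p.Prime := Fact.out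
  have hζL : (ζ : Qbar) ∈ L := hμ _ hζ.pow_eq_one
  -- group theory
  obtain ⟨R, hRcard, hR⟩ := hG (esCocycles S L) (esCoboundaries S L) p
    (clTorsionCard L (primesOverSFinset S L hTfin) p) hp
    (fun z => by
      obtain ⟨m, hm, h⟩ := hT S L z.1 z.2
      exact ⟨m, hm, by simpa [mem_esCoboundaries_iff] using h⟩)
    (fun X hX hXinj => by
      have h1 := hP p S hpS L hL hμ hTfin (X.image Subtype.val)
        (fun c hc => by
          obtain ⟨z, hz, rfl⟩ := Finset.mem_image.mp hc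
          exact ⟨z.2, by simpa [mem_esCoboundaries_iff] using hX z hz⟩)
        (fun c hc c' hc' h => by
          obtain ⟨z, hz, rfl⟩ := Finset.mem_image.mp hc
          obtain ⟨z', hz', rfl⟩ := Finset.mem_image.mp hc'
          have : z * z'⁻¹ ∈ esCoboundaries S L := by
            simpa [mem_esCoboundaries_iff] using h
          rw [hXinj z hz z' hz' this])
      rwa [Finset.card_image_of_injective _ Subtype.val_injective] at h1)
  -- Kummer step
  obtain ⟨R', hR'card, hR'⟩ := hK p S hpS L ζ hζ hζL (R.image Subtype.val)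
    (fun r hr => by
      obtain ⟨z, -, rfl⟩ := Finset.mem_image.mp hr
      exact z.2)
    (fun c hc => by
      obtain ⟨r, hr, w, b, hb, h⟩ := hR ⟨c, hc⟩
      refine ⟨r.1, Finset.mem_image_of_mem _ hr, w.1, w.2, ?_⟩
      have h1 : c = (r : GalL L → Qbarˣ) * (w : GalL L → Qbarˣ) ^ p * (b : GalL L → Qbarˣ) := by
        have := congrArg Subtype.val h
        simpa using this
      have h2 : c * ((r : GalL L → Qbarˣ) * (w : GalL L → Qbarˣ) ^ p)⁻¹
          = (b : GalL L → Qbarˣ) := by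
        rw [h1]
        exact mul_inv_cancel_comm _ _
      rw [h2]
      exact hb)
  refine ⟨R', ?_, hR'⟩
  calc R'.card ≤ (R.image Subtype.val).card := hR'card
    _ ≤ R.card := Finset.card_image_le
    _ ≤ _ := hRcard

/-- **[N6] from [N6'] and [GO2]** (elementary forms). -/
theorem sha2BoundElem_of (h : KummerKernelBoundStatement) (h2 : GO2ElemStatement) :
    Sha2BoundElemStatement := by
  intro p _ hp2 S hpS L _ hL hμ hTfin
  obtain ⟨ζ0, hζ0⟩ : ∃ ζ : Qbar, IsPrimitiveRoot ζ p :=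
    HasEnoughRootsOfUnity.exists_primitiveRoot Qbar p
  have hp : p.Prime := Fact.out
  have hne : ζ0 ≠ 0 := hζ0.ne_zero hp.ne_zero
  set ζ : Qbarˣ := Units.mk0 ζ0 hne with hζdef
  have hζ : IsPrimitiveRoot (ζ : Qbar) p := by simpa [hζdef] using hζ0
  obtain ⟨R', hcard, hR'⟩ := h p S hpS L hL hμ hTfin ζ hζ
  exact ⟨R', hcard, fun x hx hl hloc => hR' x (h2 p hp2 S hpS L hL hμ ζ hζ x hx hl hloc)⟩

end Fermat.Agent.H54.Cft
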